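import Fermat.Agent.S33.O.Defs
import Fermat.Agent.S32.Top

set_option autoImplicit false

/-!
# S33 / O / Final (L8) : the chapter (O) for `V_{p^n}(M)`, `p ∤ M`

`conclusion_VN` : the Kummer classes `V_{p^n}(M)` are flat at `p ∤ M` (S19 through `S32.flat_of_ann`).
`o_final_of` : the output of the chapter, from `fOrd_of_conclusion` (L6) and `nt_core` (L7), which are taken
as hypotheses in their exact shape, so that this file does not depend on the other leaves.
-/

namespace Fermat.Agent.S33.O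

open Fermat.Agent

/-- `V_{p^n}(M)` is flat at `p ∤ M`. -/
theorem conclusion_VN (M p : ℕ) [NeZero M] [Fact p.Prime] (hpM : ¬ p ∣ M) (n : ℕ) :
    S19.Formal.Conclusion p (GES.VN M (p ^ n)) (fun σ x => GES.actV M (p ^ n) σ x) := by
  have hp : p.Prime := Fact.out
  haveI : NeZero (p ^ n) := ⟨pow_ne_zero _ hp.ne_zero⟩
  haveI : Finite (GES.VN M (p ^ n)) := S17.WMW.finite_VN M (p ^ n)
  exact S32.flat_of_ann M p hpM n (GES.actV M (p ^ n)) (fun _ h => h)

/-- **(O)**, from (L6) and (L7). -/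
theorem o_final_of (M p : ℕ) [NeZero M] (hp : p.Prime) (hpM : ¬ p ∣ M) (n : ℕ)
    (A : ValuationSubring Qb)
    (L6 : ∀ {X : Type} [AddCommGroup X] [Finite X] (act : Gal →* AddMonoid.End X),
      S19.Formal.Conclusion p X (fun σ x => act σ x) → ∃ H : Type, Nonempty (FOrd A X act H))
    (L7 : ∀ {X : Type} [AddCommGroup X] [Finite X] (act : Gal →* AddMonoid.End X) {H : Type},
      FOrd A X act H → NT (A.inertiaSubgroupIn ℚ) act (aug (A.inertiaSubgroupIn ℚ) act)) :
    NT (A.inertiaSubgroupIn ℚ) (GES.actV M (p ^ n))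
      (aug (A.inertiaSubgroupIn ℚ) (GES.actV M (p ^ n))) := by
  haveI : Fact p.Prime := ⟨hp⟩
  haveI : NeZero (p ^ n) := ⟨pow_ne_zero _ hp.ne_zero⟩
  haveI : Finite (GES.VN M (p ^ n)) := S17.WMW.finite_VN M (p ^ n)
  obtain ⟨H, ⟨F⟩⟩ := L6 (GES.actV M (p ^ n)) (conclusion_VN M p hpM n)
  exact L7 (GES.actV M (p ^ n)) F

end Fermat.Agent.S33.O
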