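import Fermat.Agent.S33.O.OfHopfCore

set_option autoImplicit false

/-!
# S33 / (O) : the order over an arbitrary base `R ⊇ ℤ_(p)` attached to `Conclusion` (unbundled)
-/

namespace Fermat.Agent.S33.O

open Fermat.Agent.S19.Formal

/-- integral closedness of a valuation subring, in the form we need. -/
theorem mem_of_isIntegral_ringHom {B : Type} [CommRing B] (A : ValuationSubring Qb) (f : B →+* Qb)
    (hf : ∀ b, f b ∈ A) {y : Qb} (hy : f.IsIntegralElem y) : y ∈ A := by
  obtain ⟨P, hP, hPy⟩ := hy
  have h1 : IsIntegral A y := by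
    let g : B →+* A := f.codRestrict A.toSubring hf
    refine ⟨P.map g, hP.map g, ?_⟩
    rw [Polynomial.eval₂_map]
    have : (algebraMap A Qb).comp g = f := by
      ext a; rfl
    rw [this]; exact hPy
  obtain ⟨z, hz⟩ := (IsIntegrallyClosed.isIntegral_iff (R := A) (K := Qb)).1 h1
  rw [← hz]; exact z.2

/-- the unbundled order over `R`. -/
theorem exists_ord_core {R : Type} [CommRing R] [Algebra R Qb] (Γ : Subgroup Gal)
    (hfix : ∀ σ ∈ Γ, ∀ r : R, σ (algebraMap R Qb r) = algebraMap R Qb r)
    {p : ℕ} (hRl : ∀ r : Rl p, ∃ r' : R, algebraMap R Qb r' = algebraMap (Rl p) Qb r)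
    {M : Type} [AddCommGroup M] {act : Gal → M → M} (h : Conclusion p M act) :
    ∃ 𝒜 : Subalgebra R (M → Qb),
      (Subalgebra.toSubmodule 𝒜).FG ∧
      (∀ a ∈ 𝒜, ∀ σ ∈ Γ, ∀ x : M, a (act σ x) = σ (a x)) ∧
      (∀ x x' : M, (∀ a ∈ 𝒜, a x = a x') → x = x') ∧
      (∀ a ∈ 𝒜, ∃ (n : ℕ) (u v : Fin n → M → Qb), (∀ i, u i ∈ 𝒜) ∧ (∀ i, v i ∈ 𝒜) ∧
        ∀ x x' : M, a (x + x') = ∑ i, u i x * v i x') ∧
      (∀ A : ValuationSubring Qb, (∀ r : R, algebraMap R Qb r ∈ A) →
        ∀ a ∈ 𝒜, ∀ x : M, a x ∈ A) := by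
  classical
  obtain ⟨H, i1, i2, hfin, ev, hev1, hev2, hev3⟩ := conclusion_core h
  let 𝒜 : Subalgebra R (M → Qb) := Algebra.adjoin R (Set.range ev)
  have hsmul : ∀ (r : Rl p) (r' : R), algebraMap R Qb r' = algebraMap (Rl p) Qb r →
      ∀ f : M → Qb, r • f = r' • f := by
    intro r r' hr f
    funext x
    rw [Pi.smul_apply, Pi.smul_apply, Algebra.smul_def, Algebra.smul_def, hr]
  -- `𝒜` is the span of the range of `ev`
  have hspan : Subalgebra.toSubmodule 𝒜 = Submodule.span R (Set.range ev) := by
    have h1 : (Submonoid.closure (Set.range ev) : Set (M → Qb)) = Set.range ev := by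
      have : (Set.range ev) = ((MonoidHom.mrange (ev : H →* (M → Qb))) : Set (M → Qb)) := by
        ext f; simp
      rw [this, Submonoid.closure_eq]
    rw [Algebra.adjoin_eq_span, h1]
  have hmem : ∀ c : H, ev c ∈ 𝒜 := fun c => Algebra.subset_adjoin ⟨c, rfl⟩
  refine ⟨𝒜, ?_, ?_, ?_, ?_, ?_⟩
  · obtain ⟨S, hS⟩ := hfin.fg_top
    refine ⟨S.image ev, ?_⟩
    rw [hspan]
    apply le_antisymm
    · apply Submodule.span_mono
      intro f hf
      obtain ⟨c, -, rfl⟩ := Finset.mem_image.mp (Finset.mem_coe.mp hf)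
      exact ⟨c, rfl⟩
    · rw [Submodule.span_le]
      rintro _ ⟨c, rfl⟩
      have hc : c ∈ Submodule.span (Rl p) (S : Set H) := by rw [hS]; trivial
      induction hc using Submodule.span_induction with
      | mem c hc => exact Submodule.subset_span (Finset.mem_coe.mpr (Finset.mem_image_of_mem _ hc))
      | zero => rw [map_zero]; exact Submodule.zero_mem _
      | add c d _ _ hc hd => rw [map_add]; exact Submodule.add_mem _ hc hd
      | smul r c _ hc =>
        obtain ⟨r', hr'⟩ := hRl r
        rw [map_smul, hsmul r r' hr']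
        exact Submodule.smul_mem _ _ hc
  · intro a ha σ hσ x
    have ha' : a ∈ Submodule.span R (Set.range ev) := by rw [← hspan]; exact ha
    clear ha
    induction ha' using Submodule.span_induction with
    | mem a ha => obtain ⟨c, rfl⟩ := ha; exact hev1 c σ x
    | zero => simp
    | add a b _ _ ha hb =>
      rw [Pi.add_apply, Pi.add_apply, map_add,
        ha, hb]
    | smul r a _ ha =>
      rw [Pi.smul_apply, Pi.smul_apply, Algebra.smul_def, Algebra.smul_def, map_mul, hfix σ hσ,
        ha]
  · intro x x' hx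
    exact hev2 x x' fun c => hx _ (hmem c)
  · intro a ha
    have ha' : a ∈ Submodule.span R (Set.range ev) := by rw [← hspan]; exact ha
    clear ha
    induction ha' using Submodule.span_induction with
    | mem a ha =>
      obtain ⟨c, rfl⟩ := ha
      obtain ⟨n, a, b, hab⟩ := hev3 c
      exact ⟨n, fun i => ev (a i), fun i => ev (b i), fun i => hmem _, fun i => hmem _, hab⟩
    | zero => exact ⟨0, Fin.elim0, Fin.elim0, fun i => i.elim0, fun i => i.elim0, by simp⟩
    | add a b ha0 hb0 ha hb =>
      obtain ⟨n, u, v, hu, hv, huv⟩ := ha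
      obtain ⟨m, u', v', hu', hv', huv'⟩ := hb
      refine ⟨n + m, Fin.append u u', Fin.append v v', ?_, ?_, ?_⟩
      · intro i
        refine Fin.addCases (fun j => ?_) (fun j => ?_) i
        · rw [Fin.append_left]; exact hu j
        · rw [Fin.append_right]; exact hu' j
      · intro i
        refine Fin.addCases (fun j => ?_) (fun j => ?_) i
        · rw [Fin.append_left]; exact hv j
        · rw [Fin.append_right]; exact hv' j
      · intro x x'
        rw [Fin.sum_univ_add, Pi.add_apply, huv, huv']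
        simp only [Fin.append_left, Fin.append_right]
    | smul r a _ ha =>
      obtain ⟨n, u, v, hu, hv, huv⟩ := ha
      refine ⟨n, fun i => r • u i, v, fun i => Subalgebra.smul_mem _ (hu i) r, hv, ?_⟩
      intro x x'
      rw [Pi.smul_apply, huv, Finset.smul_sum]
      refine Finset.sum_congr rfl fun i _ => ?_
      show r • (u i x * v i x') = (r • u i x) * v i x'
      rw [smul_mul_assoc]
  · intro A hRA a ha x
    have ha' : a ∈ Submodule.span R (Set.range ev) := by rw [← hspan]; exact ha
    clear ha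
    induction ha' using Submodule.span_induction with
    | mem a ha =>
      obtain ⟨c, rfl⟩ := ha
      have h1 : IsIntegral (Rl p) c := Algebra.IsIntegral.isIntegral c
      have h2 : IsIntegral (Rl p) (ev c x) :=
        (h1.map ev).map (Pi.evalAlgHom (Rl p) (fun _ : M => Qb) x)
      refine mem_of_isIntegral_ringHom A (algebraMap (Rl p) Qb) ?_ h2
      intro r
      obtain ⟨r', hr'⟩ := hRl r
      rw [← hr']
      exact hRA r'
    | zero => exact A.zero_mem
    | add a b _ _ ha hb =>
      exact A.add_mem _ _ ha hb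
    | smul r a _ ha =>
      rw [Pi.smul_apply, Algebra.smul_def]
      exact A.mul_mem _ _ (hRA r) ha

end Fermat.Agent.S33.O
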