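import Fermat.Agent.S33.O.Defs
import Fermat.Agent.S33.O.OfHopfSpan

set_option autoImplicit false

/-!
# S33 / O / L6 : `Conclusion` gives a function order
-/

namespace Fermat.Agent.S33.O

open Fermat.Agent.S19.Formal (Conclusion Rl)

theorem inv_not_mem_of_liesOver {p : ℕ} (hp : p.Prime) (A : ValuationSubring Qb)
    (hA : A.LiesOverPrime p) : ((p : Qb))⁻¹ ∉ A := by
  intro h
  have h1 : (p : Qb) ∈ A.nonunits := hA
  have h2 : (p : Qb) ≠ 0 := Nat.cast_ne_zero.2 hp.ne_zero
  obtain ⟨ha, hm⟩ := (ValuationSubring.mem_nonunits_iff_exists_mem_maximalIdeal).1 h1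
  apply (IsLocalRing.mem_maximalIdeal _).1 hm
  exact IsUnit.of_mul_eq_one (⟨_, h⟩ : A) (Subtype.ext (mul_inv_cancel₀ h2))

theorem fOrd_of_conclusion {p : ℕ} (hp : p.Prime) (A : ValuationSubring Qb)
    (hA : A.LiesOverPrime p) {X : Type} [AddCommGroup X] [Finite X]
    (act : Gal →* AddMonoid.End X)
    (h : Conclusion p X (fun σ x => act σ x)) : ∃ H : Type, Nonempty (FOrd A X act H) := by
  classical
  have : Fact p.Prime := ⟨hp⟩
  cases nonempty_fintype X
  obtain ⟨H, i1, i2, hfin, ev, hev1, hev2, hev3⟩ := conclusion_core h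
  have hRlA : ∀ r : Rl p, algebraMap (Rl p) Qb r ∈ A :=
    Fermat.Agent.S19.Formal.algebraMap_Rl_mem p A (inv_not_mem_of_liesOver hp A hA)
  -- linear independence of the evaluations
  have hli : LinearIndependent Qb (fun (x : X) (c : H) => ev c x) := by
    let ε : X → (H →* Qb) := fun x =>
      { toFun := fun c => ev c x
        map_one' := by rw [map_one]; rfl
        map_mul' := fun c d => by rw [map_mul]; rfl }
    have hε : Function.Injective ε := by
      intro x x' hx
      exact hev2 x x' fun c => DFunLike.congr_fun hx c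
    exact (linearIndependent_monoidHom H Qb).comp ε hε
  have htop : Submodule.span Qb (Set.range ev) = ⊤ := by
    by_contra hne
    obtain ⟨f, hf0, hf⟩ := Submodule.exists_le_ker_of_lt_top _ (lt_top_iff_ne_top.mpr hne)
    apply hf0
    have h1 : ∀ c : H, ∑ x, f (fun j => if x = j then 1 else 0) * ev c x = 0 := by
      intro c
      have h2 : f (ev c) = 0 := hf (Submodule.subset_span ⟨c, rfl⟩)
      rw [LinearMap.pi_apply_eq_sum_univ f (ev c)] at h2
      refine Eq.trans ?_ h2
      refine Finset.sum_congr rfl fun x _ => ?_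
      rw [smul_eq_mul, mul_comm]
    have h3 := Fintype.linearIndependent_iff.mp hli (fun x => f (fun j => if x = j then 1 else 0)) (by
      funext c
      simp only [Finset.sum_apply, Pi.smul_apply, smul_eq_mul, Pi.zero_apply]
      exact h1 c)
    apply LinearMap.ext
    intro g
    rw [LinearMap.pi_apply_eq_sum_univ f g]
    simp only [h3, smul_zero, Finset.sum_const_zero, LinearMap.zero_apply]
  refine ⟨H, ⟨{
    ev := fun c x => ev c x
    int := ?_
    equiv := fun σ c x => hev1 c σ x
    comul := hev3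
    span := ?_
    fg := ?_ }⟩⟩
  · intro c x
    have h1 : IsIntegral (Rl p) c := Algebra.IsIntegral.isIntegral c
    have h2 : IsIntegral (Rl p) (ev c x) :=
      (h1.map ev).map (Pi.evalAlgHom (Rl p) (fun _ : X => Qb) x)
    exact mem_of_isIntegral_ringHom A (algebraMap (Rl p) Qb) hRlA h2
  · intro g
    have hg : g ∈ Submodule.span Qb (Set.range ev) := by rw [htop]; trivial
    induction hg using Submodule.span_induction with
    | mem g hg =>
      obtain ⟨c, rfl⟩ := hg
      exact ⟨1, fun _ => 1, fun _ => c, fun x => by simp⟩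
    | zero => exact ⟨0, Fin.elim0, Fin.elim0, fun x => by simp⟩
    | add g g' _ _ hg hg' =>
      obtain ⟨n, c, d, hcd⟩ := hg
      obtain ⟨m, c', d', hcd'⟩ := hg'
      refine ⟨n + m, Fin.append c c', Fin.append d d', fun x => ?_⟩
      rw [Fin.sum_univ_add, Pi.add_apply, hcd, hcd']
      simp only [Fin.append_left, Fin.append_right]
    | smul r g _ hg =>
      obtain ⟨n, c, d, hcd⟩ := hg
      refine ⟨n, fun i => r * c i, d, fun x => ?_⟩
      rw [Pi.smul_apply, hcd, smul_eq_mul, Finset.mul_sum]
      exact Finset.sum_congr rfl fun i _ => by rw [mul_assoc]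
  · obtain ⟨n, s, hs⟩ := Module.Finite.exists_fin (R := Rl p) (M := H)
    refine ⟨n, s, fun c => ?_⟩
    have hc : c ∈ Submodule.span (Rl p) (Set.range s) := by rw [hs]; trivial
    obtain ⟨r, hr⟩ := (Submodule.mem_span_range_iff_exists_fun (Rl p)).mp hc
    refine ⟨fun i => algebraMap (Rl p) Qb (r i), fun i => hRlA _, fun x => ?_⟩
    rw [← hr, map_sum, Finset.sum_apply]
    refine Finset.sum_congr rfl fun i _ => ?_
    rw [map_smul, Pi.smul_apply, Algebra.smul_def]

end Fermat.Agent.S33.O
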