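import Fermat.Agent.S33.O.Core
import Fermat.Agent.S33.O.OfHopf
import Fermat.Agent.S33.O.Final

set_option autoImplicit false

/-!
# S33 / O / Main : the output of chapter (O)
-/

namespace Fermat.Agent.S33.O

open Fermat.Agent

/-- **(O)** : `I.V_{p^n}(M)` has no nonzero subquotient with trivial inertia action (`p` odd,
`p ∤ M`). -/
theorem o_main (M p : ℕ) [NeZero M] (hp : p.Prime) (hp2 : p ≠ 2) (hpM : ¬ p ∣ M) (n : ℕ)
    (A : ValuationSubring Qb) (hA : A.LiesOverPrime p) :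
    NT (A.inertiaSubgroupIn ℚ) (GES.actV M (p ^ n))
      (aug (A.inertiaSubgroupIn ℚ) (GES.actV M (p ^ n))) := by
  have : Fact p.Prime := ⟨hp⟩
  have : NeZero (p ^ n) := ⟨pow_ne_zero _ hp.ne_zero⟩
  have : Finite (GES.VN M (p ^ n)) := S17.WMW.finite_VN M (p ^ n)
  obtain ⟨H, ⟨F⟩⟩ := fOrd_of_conclusion hp A hA (GES.actV M (p ^ n)) (conclusion_VN M p hpM n)
  exact nt_core hp hp2 A hA (GES.actV M (p ^ n)) n
    (fun x => GES.Vm.nsmul_eq_zero x) F

end Fermat.Agent.S33.O
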