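import Fermat.Agent.S33.O.Main
import Fermat.Agent.S33.Geo
import Fermat.Agent.S33.Final

set_option autoImplicit false

/-!
# S33 / O / Stmt : chapter (O) in the two shapes asked for by the assemblies
-/

namespace Fermat.Agent.S33.O

/-- chapter (O) in the shape of `S33/Geo.lean`. -/
theorem main : OStatement :=
  fun M p _ hp hp2 hpM n P hP => o_main M p hp hp2 hpM n P hP

/-- chapter (O) in the shape of `S33/Final.lean`. -/
theorem hypO (p M : ℕ) [NeZero M] (hp : p.Prime) (hp2 : p ≠ 2) (hpM : ¬ p ∣ M) : HypO p M :=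
  fun P hP n => o_main M p hp hp2 hpM n P hP

end Fermat.Agent.S33.O
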