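import Mathlib

set_option autoImplicit false

/-!
# S33 / O / Exch : the exchange lemma over a valuation ring  (L3)
-/

namespace Fermat.Agent.S33.O

theorem exists_indep_span {F V : Type*} [Field F] [AddCommGroup V] [Module F V]
    (A : ValuationSubring F) (S : Finset V) :
    ∃ T : Finset V, T ⊆ S ∧ LinearIndependent F (fun t : T => (t : V)) ∧
      ∀ s ∈ S, ∃ c : V → F, (∀ t, c t ∈ A) ∧ s = ∑ t ∈ T, c t • t := by
  classical
  let P : Finset V → Prop := fun T =>
    ∀ s ∈ S, ∃ c : V → F, (∀ t, c t ∈ A) ∧ s = ∑ t ∈ T, c t • t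
  have hPS : P S := by
    intro s hs
    refine ⟨fun t => if t = s then 1 else 0, fun t => ?_, ?_⟩
    · by_cases h : t = s
      · simp only [h, if_true]; exact A.one_mem
      · simp only [h, if_false]; exact A.zero_mem
    · rw [Finset.sum_eq_single s]
      · simp
      · intro b _ hb
        simp [hb]
      · intro h
        exact absurd hs h
  have hne : (S.powerset.filter P).Nonempty :=
    ⟨S, Finset.mem_filter.2 ⟨Finset.mem_powerset.2 (Finset.Subset.refl S), hPS⟩⟩
  obtain ⟨T, hT, hmin⟩ := Finset.exists_min_image (S.powerset.filter P) Finset.card hne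
  obtain ⟨hTS, hPT⟩ := Finset.mem_filter.1 hT
  rw [Finset.mem_powerset] at hTS
  refine ⟨T, hTS, ?_, hPT⟩
  have hli : LinearIndepOn F id (T : Set V) := by
    rw [linearIndepOn_finset_iff]
    intro f hf
    by_contra hcon
    have hcon : ∃ t1 ∈ T, f t1 ≠ 0 := by
      by_contra h
      exact hcon fun i hi => by_contra fun h' => h ⟨i, hi, h'⟩
    obtain ⟨t1, ht1, hft1⟩ := hcon
    obtain ⟨t0, ht0, hmax⟩ := Finset.exists_max_image T (fun t => A.valuation (f t)) ⟨t1, ht1⟩
    have hft0 : f t0 ≠ 0 := by
      intro h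
      have h1 := hmax t1 ht1
      simp only [h, map_zero, le_zero_iff, map_eq_zero] at h1
      exact hft1 h1
    have hq : ∀ t ∈ T, f t / f t0 ∈ A := by
      intro t ht
      rw [← A.valuation_le_one_iff, map_div₀]
      exact div_le_one_of_le₀ (hmax t ht) zero_le
    -- `t0` in terms of the others
    have ht0eq : t0 = ∑ t ∈ T.erase t0, (-(f t / f t0)) • t := by
      have h1 : f t0 • t0 + ∑ t ∈ T.erase t0, f t • t = 0 := by
        rw [Finset.add_sum_erase T (fun t => f t • t) ht0]
        exact hf
      have h2 : f t0 • t0 = -∑ t ∈ T.erase t0, f t • t := eq_neg_of_add_eq_zero_left h1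
      have h3 : (f t0)⁻¹ • (f t0 • t0) = t0 := by
        rw [smul_smul, inv_mul_cancel₀ hft0, one_smul]
      have h4 : t0 = (f t0)⁻¹ • (-∑ t ∈ T.erase t0, f t • t) := by rw [← h2, h3]
      refine h4.trans ?_
      rw [smul_neg, Finset.smul_sum, ← Finset.sum_neg_distrib]
      refine Finset.sum_congr rfl fun t _ => ?_
      rw [smul_smul, neg_smul, div_eq_mul_inv, mul_comm]
    have hP' : P (T.erase t0) := by
      intro s hs
      obtain ⟨c, hc, hsc⟩ := hPT s hs
      refine ⟨fun t => if t ∈ T then c t - c t0 * (f t / f t0) else 0, fun t => ?_, ?_⟩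
      · by_cases h : t ∈ T
        · simp only [h, if_true]
          exact A.sub_mem (hc t) (A.mul_mem _ _ (hc t0) (hq t h))
        · simp only [h, if_false]
          exact A.zero_mem
      · have h1 : s = c t0 • t0 + ∑ t ∈ T.erase t0, c t • t := by
          rw [Finset.add_sum_erase T (fun t => c t • t) ht0]
          exact hsc
        have h2 : c t0 • t0 = ∑ t ∈ T.erase t0, (-(c t0 * (f t / f t0))) • t := by
          refine (congrArg (fun z => c t0 • z) ht0eq).trans ?_
          show c t0 • ∑ t ∈ T.erase t0, (-(f t / f t0)) • t = _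
          rw [Finset.smul_sum]
          refine Finset.sum_congr rfl fun t _ => ?_
          rw [smul_smul, mul_neg]
        rw [h1, h2, ← Finset.sum_add_distrib]
        refine Finset.sum_congr rfl fun t ht => ?_
        show _ = (if t ∈ T then c t - c t0 * (f t / f t0) else 0) • t
        rw [if_pos (Finset.mem_of_mem_erase ht), ← add_smul]
        congr 1
        ring
    have h5 := hmin (T.erase t0) (Finset.mem_filter.2
      ⟨Finset.mem_powerset.2 ((Finset.erase_subset t0 T).trans hTS), hP'⟩)
    have h6 := Finset.card_erase_lt_of_mem ht0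
    omega
  exact hli

end Fermat.Agent.S33.O
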