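import Fermat.Agent.S33.O.Defs
import Fermat.Agent.S33.O.Exch
import Fermat.Agent.S36.Descent.Unram

set_option autoImplicit false

/-!
# S33 / O / C : the integral measure on an inertia orbit
-/

namespace Fermat.Agent.S33.O

/-- an element of `𝔪_A` fixed by the inertia group is divisible by `p`. -/
theorem div_mem_of_fixed' {p : ℕ} (hp : p.Prime) (A : ValuationSubring Qb)
    (hA : A.LiesOverPrime p) (x : Qb) (hfix : ∀ τ ∈ A.inertiaSubgroupIn ℚ, τ x = x)
    (hx : x ∈ A.nonunits) : x / (p : Qb) ∈ A := by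
  have : FiniteDimensional ℚ (IntermediateField.adjoin ℚ {x}) :=
    IntermediateField.adjoin.finiteDimensional
      (((AlgebraicClosure.isAlgebraic ℚ).isAlgebraic x).isIntegral)
  refine S36.Unram.div_mem_of_fixed A hp hA (IntermediateField.adjoin ℚ {x}) ?_
    (IntermediateField.mem_adjoin_simple_self ℚ x) hx
  intro y hy τ hτ
  have hx' := hfix τ hτ
  induction hy using IntermediateField.adjoin_induction with
  | mem z hz =>
    rw [Set.mem_singleton_iff] at hz
    rw [hz]; exact hx'
  | algebraMap r => exact τ.commutes r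
  | add a b _ _ ha hb => rw [map_add, ha, hb]
  | inv a _ ha => rw [map_inv₀, ha]
  | mul a b _ _ ha hb => rw [map_mul, ha, hb]

theorem exists_c {p : ℕ} (hp : p.Prime) (A : ValuationSubring Qb) (hA : A.LiesOverPrime p)
    {O : Type} [Fintype O] [Nonempty O] (m : Gal → O → O) (S : Finset (O → Qb))
    (hS : ∀ s ∈ S, ∀ y, s y ∈ A.nonunits)
    (heq : ∀ σ ∈ A.inertiaSubgroupIn ℚ, ∀ s ∈ S, ∀ y, s (m σ y) = σ (s y)) :
    ∃ c : O → Qb, ∑ y, c y = 1 / (p : Qb) ∧ ∀ s ∈ S, ∑ y, c y * s y ∈ A := by
  classical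
  have hp0 : (p : Qb) ≠ 0 := by exact_mod_cast hp.ne_zero
  obtain ⟨T, hTS, hTli, hTspan⟩ := exists_indep_span A S
  -- it is enough to find a linear functional
  suffices h : ∃ g : (O → Qb) →ₗ[Qb] Qb, g (fun _ => 1) = 1 / (p : Qb) ∧ ∀ t ∈ T, g t ∈ A by
    obtain ⟨g, hg1, hgT⟩ := h
    refine ⟨fun y => g (fun j => if y = j then 1 else 0), ?_, fun s hs => ?_⟩
    · rw [← hg1, LinearMap.pi_apply_eq_sum_univ g (fun _ => 1)]
      exact Finset.sum_congr rfl fun y _ => by rw [one_smul]
    · have e1 : ∑ y, g (fun j => if y = j then 1 else 0) * s y = g s := by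
        rw [LinearMap.pi_apply_eq_sum_univ g s]
        exact Finset.sum_congr rfl fun y _ => by rw [smul_eq_mul, mul_comm]
      rw [e1]
      obtain ⟨c, hcA, hc⟩ := hTspan s hs
      rw [hc, map_sum]
      refine A.toSubring.sum_mem fun t ht => ?_
      rw [map_smul, smul_eq_mul]
      exact A.mul_mem _ _ (hcA t) (hgT t ht)
  by_cases h1 : (fun _ => 1 : O → Qb) ∈ Submodule.span Qb (T : Set (O → Qb))
  · -- `1 = ∑ β_t t`
    obtain ⟨β, hβ⟩ : ∃ β : (O → Qb) → Qb, (fun _ => 1 : O → Qb) = ∑ t ∈ T, β t • t := by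
      obtain ⟨β, _, hβ⟩ := (Submodule.mem_span_finset).mp h1
      exact ⟨β, hβ.symm⟩
    have hli := linearIndependent_iff'.mp hTli
    -- the coordinates are fixed by inertia
    have hinv : ∀ σ ∈ A.inertiaSubgroupIn ℚ, ∀ t ∈ T, σ (β t) = β t := by
      intro σ hσ t ht
      have hz : ∑ t ∈ T, (σ.symm (β t) - β t) • t = 0 := by
        funext y
        have e1 := congrFun hβ (m σ y)
        have e2 := congrFun hβ y
        simp only [Finset.sum_apply, Pi.smul_apply, smul_eq_mul] at e1 e2
        have e3 : (1 : Qb) = ∑ t ∈ T, σ.symm (β t) * t y := by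
          have e4 : σ.symm (1 : Qb) = σ.symm (∑ t ∈ T, β t * t (m σ y)) := congrArg _ e1
          rw [map_one, map_sum] at e4
          rw [e4]
          refine Finset.sum_congr rfl fun t ht => ?_
          rw [map_mul, heq σ hσ t (hTS ht) y, AlgEquiv.symm_apply_apply]
        simp only [Finset.sum_apply, Pi.smul_apply, smul_eq_mul, Pi.zero_apply, sub_mul,
          Finset.sum_sub_distrib]
        rw [← e3, ← e2, sub_self]
      have h0 := hli Finset.univ (fun t : T => σ.symm (β t) - β t) (by
        rw [← hz, ← Finset.sum_coe_sort T (fun t => (σ.symm (β t) - β t) • t)]) ⟨t, ht⟩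
        (Finset.mem_univ _)
      have h2 : σ.symm (β t) = β t := sub_eq_zero.mp h0
      conv_lhs => rw [← h2]
      exact AlgEquiv.apply_symm_apply σ _
    -- some `p β_t` is not in the maximal ideal
    obtain ⟨t0, ht0, hnon⟩ : ∃ t0 ∈ T, (p : Qb) * β t0 ∉ A.nonunits := by
      by_contra hcon
      push Not at hcon
      have hβA : ∀ t ∈ T, β t ∈ A := by
        intro t ht
        have := div_mem_of_fixed' hp A hA ((p : Qb) * β t) (fun τ hτ => by
          rw [map_mul, map_natCast, hinv τ hτ t ht]) (hcon t ht)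
        rwa [mul_div_cancel_left₀ _ hp0] at this
      obtain ⟨y⟩ := (inferInstance : Nonempty O)
      have e2 := congrFun hβ y
      simp only [Finset.sum_apply, Pi.smul_apply, smul_eq_mul] at e2
      have hlt : A.valuation (∑ t ∈ T, β t * t y) < 1 := by
        refine A.valuation.map_sum_lt one_ne_zero fun t ht => ?_
        rw [map_mul]
        have h3 : A.valuation (β t) ≤ 1 := (A.valuation_le_one_iff _).mpr (hβA t ht)
        have h4 : A.valuation (t y) < 1 := hS t (hTS ht) y
        exact mul_lt_one_of_nonneg_of_lt_one_right h3 zero_le h4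
      rw [← e2, map_one] at hlt
      exact lt_irrefl _ hlt
    have hinvA : ((p : Qb) * β t0)⁻¹ ∈ A := by
      by_contra hh
      exact hnon (A.mem_nonunits_iff_or.mpr (Or.inr hh))
    have hne : (p : Qb) * β t0 ≠ 0 := by
      intro h0
      exact hnon (A.mem_nonunits_iff_or.mpr (Or.inl h0))
    -- the coordinate functional
    obtain ⟨f, hf⟩ := LinearMap.exists_extend
      ((Finsupp.lapply (⟨t0, ht0⟩ : T)).comp (hTli.repr : _ →ₗ[Qb] (T →₀ Qb)))
    have hft : ∀ t (ht : t ∈ T), f t = if t = t0 then 1 else 0 := by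
      intro t ht
      have hmem : t ∈ Submodule.span Qb (Set.range (fun t : T => (t : O → Qb))) :=
        Submodule.subset_span ⟨⟨t, ht⟩, rfl⟩
      have e1 := LinearMap.congr_fun hf ⟨t, hmem⟩
      simp only [LinearMap.comp_apply, Submodule.subtype_apply] at e1
      rw [e1]
      have e2 : hTli.repr ⟨t, hmem⟩ = Finsupp.single (⟨t, ht⟩ : T) 1 :=
        hTli.repr_eq_single ⟨t, ht⟩ ⟨t, hmem⟩ rfl
      show (Finsupp.lapply (⟨t0, ht0⟩ : T)) (hTli.repr ⟨t, hmem⟩) = _
      rw [e2, Finsupp.lapply_apply, Finsupp.single_apply]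
      by_cases htt : t = t0
      · subst htt; simp
      · rw [if_neg htt, if_neg (fun h => htt (congrArg Subtype.val h))]
    refine ⟨((p : Qb) * β t0)⁻¹ • f, ?_, fun t ht => ?_⟩
    · rw [LinearMap.smul_apply, hβ, map_sum, smul_eq_mul]
      have e3 : ∑ t ∈ T, f (β t • t) = β t0 := by
        rw [Finset.sum_eq_single_of_mem t0 ht0]
        · rw [map_smul, hft t0 ht0, if_pos rfl, smul_eq_mul, mul_one]
        · intro t ht hne'
          rw [map_smul, hft t ht, if_neg hne', smul_zero]
      rw [e3]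
      have hβ0 : β t0 ≠ 0 := fun h => hne (by rw [h, mul_zero])
      field_simp
    · rw [LinearMap.smul_apply, hft t ht, smul_eq_mul]
      split_ifs
      · rw [mul_one]; exact hinvA
      · rw [mul_zero]; exact A.zero_mem
  · obtain ⟨f, hf1, hfT⟩ := Submodule.exists_le_ker_of_notMem h1
    refine ⟨((p : Qb) * f (fun _ => 1))⁻¹ • f, ?_, fun t ht => ?_⟩
    · rw [LinearMap.smul_apply, smul_eq_mul]
      field_simp
    · have : f t = 0 := hfT (Submodule.subset_span ht)
      rw [LinearMap.smul_apply, this, smul_zero]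
      exact A.zero_mem

end Fermat.Agent.S33.O
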