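import Fermat.Agent.S33.O.Defs
import Fermat.Agent.S05.InertiaFacts

set_option autoImplicit false

/-!
# S33 / O / K : the kernel of reduction of a function order contains `I.X`

`KF F := {x | ∀ h, ev h x - ev h 0 ∈ m_A}` is a subgroup (for finite `X`) containing `aug I act`.
-/

namespace Fermat.Agent.S33.O

section small

variable {A : ValuationSubring Qb}

theorem sm_add {a b : Qb} (ha : a ∈ A.nonunits) (hb : b ∈ A.nonunits) : a + b ∈ A.nonunits := by
  rw [ValuationSubring.mem_nonunits_iff] at *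
  exact lt_of_le_of_lt (A.valuation.map_add _ _) (max_lt ha hb)

theorem sm_zero : (0 : Qb) ∈ A.nonunits := by
  rw [ValuationSubring.mem_nonunits_iff, map_zero]
  exact zero_lt_one

theorem sm_mul_left {a b : Qb} (ha : a ∈ A.nonunits) (hb : b ∈ A) : a * b ∈ A.nonunits := by
  rw [ValuationSubring.mem_nonunits_iff] at *
  rw [map_mul]
  exact mul_lt_one_of_lt_of_le ha ((A.valuation_le_one_iff _).2 hb)

theorem sm_mul_right {a b : Qb} (ha : a ∈ A) (hb : b ∈ A.nonunits) : a * b ∈ A.nonunits := by
  rw [mul_comm]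
  exact sm_mul_left hb ha

theorem sm_sum {ι : Type*} (s : Finset ι) (f : ι → Qb) (h : ∀ i ∈ s, f i ∈ A.nonunits) :
    ∑ i ∈ s, f i ∈ A.nonunits := by
  classical
  induction s using Finset.induction_on with
  | empty => simpa using sm_zero
  | insert a s ha ih =>
    rw [Finset.sum_insert ha]
    exact sm_add (h a (Finset.mem_insert_self a s))
      (ih fun i hi => h i (Finset.mem_insert_of_mem hi))

/-- `a ≡ a'`, `b ≡ b'` (all integral) ⟹ `a b ≡ a' b'`. -/
theorem sm_mul_sub {a a' b b' : Qb} (ha' : a' ∈ A) (hb : b ∈ A)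
    (h1 : a - a' ∈ A.nonunits) (h2 : b - b' ∈ A.nonunits) : a * b - a' * b' ∈ A.nonunits := by
  have : a * b - a' * b' = (a - a') * b + a' * (b - b') := by ring
  rw [this]
  exact sm_add (sm_mul_left h1 hb) (sm_mul_right ha' h2)

end small

variable {A : ValuationSubring Qb} {X : Type} [AddCommGroup X] {act : Gal →* AddMonoid.End X}
  {H : Type}

/-- membership in the kernel of reduction. -/
def InK (F : FOrd A X act H) (x : X) : Prop := ∀ h, F.ev h x - F.ev h 0 ∈ A.nonunits

theorem InK.zero (F : FOrd A X act H) : InK F 0 := fun h => by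
  rw [sub_self]; exact sm_zero

/-- general congruence: `x ≡ x'`, `y ≡ y'` pointwise on the order ⟹ `x + y ≡ x' + y'`. -/
theorem ev_add_congr (F : FOrd A X act H) {x x' y y' : X}
    (hx : ∀ h, F.ev h x - F.ev h x' ∈ A.nonunits) (hy : ∀ h, F.ev h y - F.ev h y' ∈ A.nonunits)
    (h : H) : F.ev h (x + y) - F.ev h (x' + y') ∈ A.nonunits := by
  obtain ⟨n, a, b, hab⟩ := F.comul h
  rw [hab x y, hab x' y', ← Finset.sum_sub_distrib]
  refine sm_sum _ _ fun i _ => ?_
  exact sm_mul_sub (F.int _ _) (F.int _ _) (hx _) (hy _)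

theorem InK.add (F : FOrd A X act H) {x y : X} (hx : InK F x) (hy : InK F y) : InK F (x + y) := by
  intro h
  have := ev_add_congr F (x := x) (x' := 0) (y := y) (y' := 0) hx hy h
  rwa [add_zero] at this

theorem InK.nsmul (F : FOrd A X act H) {x : X} (hx : InK F x) (n : ℕ) : InK F (n • x) := by
  induction n with
  | zero => rw [zero_smul]; exact InK.zero F
  | succ n ih => rw [succ_nsmul]; exact ih.add F hx

theorem InK.neg [Finite X] (F : FOrd A X act H) {x : X} (hx : InK F x) : InK F (-x) := by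
  have hpos : 0 < addOrderOf x := addOrderOf_pos x
  have h1 : (addOrderOf x - 1) • x = -x := by
    have h2 : (addOrderOf x - 1) • x + x = 0 := by
      rw [← succ_nsmul, Nat.sub_add_cancel hpos, addOrderOf_nsmul_eq_zero]
    exact eq_neg_of_add_eq_zero_left h2
  rw [← h1]
  exact hx.nsmul F _

/-- generators. -/
theorem InK.gen (F : FOrd A X act H) {s : Gal} (hs : s ∈ A.inertiaSubgroupIn ℚ) (x : X) :
    InK F (act s x - x) := by
  intro h
  have h1 : ∀ h, F.ev h (act s x) - F.ev h x ∈ A.nonunits := by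
    intro h
    rw [F.equiv]
    exact Fermat.Agent.S05.sub_mem_nonunits_of_mem_inertia hs (F.int _ _)
  have h2 : ∀ h, F.ev h (-x) - F.ev h (-x) ∈ A.nonunits := fun h => by
    rw [sub_self]; exact sm_zero
  have := ev_add_congr F h1 h2 h
  rwa [add_neg_cancel, ← sub_eq_add_neg] at this

/-- the kernel of reduction, as a subgroup. -/
def KF [Finite X] (F : FOrd A X act H) : AddSubgroup X where
  carrier := {x | InK F x}
  add_mem' := fun hx hy => InK.add F hx hy
  zero_mem' := InK.zero F
  neg_mem' := fun hx => InK.neg F hx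

theorem mem_KF [Finite X] (F : FOrd A X act H) {x : X} :
    x ∈ KF F ↔ ∀ h, F.ev h x - F.ev h 0 ∈ A.nonunits := Iff.rfl

theorem aug_le_KF [Finite X] (F : FOrd A X act H) : aug (A.inertiaSubgroupIn ℚ) act ≤ KF F := by
  rw [aug, AddSubgroup.closure_le]
  rintro _ ⟨s, hs, x, rfl⟩
  exact InK.gen F hs x

/-- **`aug_le_K`**. -/
theorem aug_le_K [Finite X] (F : FOrd A X act H) :
    ∀ x ∈ aug (A.inertiaSubgroupIn ℚ) act, ∀ h, F.ev h x - F.ev h 0 ∈ A.nonunits :=
  fun _ hx => aug_le_KF F hx

/-- `KF` is stable under the whole decomposition-free part: under `I`. -/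
theorem stab_KF [Finite X] (F : FOrd A X act H) : Stab (A.inertiaSubgroupIn ℚ) act (KF F) := by
  intro s hs x hx
  have h1 : act s x = (act s x - x) + x := by abel
  rw [h1]
  exact (KF F).add_mem (InK.gen F hs x) hx

end Fermat.Agent.S33.O
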