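import Fermat.Agent.S33.O.Defs
import Fermat.Agent.S19.Formal.RLoc

set_option autoImplicit false

/-!
# S33 / O / Pow (L1) : convolution powers of an integral measure are integral
-/

namespace Fermat.Agent.S33.O

/-- every algebraic number becomes integral at `A` after multiplication by a power of `p`
(`A ∣ p`). -/
theorem exists_pow_mul_mem {p : ℕ} (hp : p.Prime) (A : ValuationSubring Qb)
    (hA : A.LiesOverPrime p) (c : Qb) : ∃ N : ℕ, ∀ N' : ℕ, N ≤ N' → (p : Qb) ^ N' * c ∈ A := by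
  haveI : Fact p.Prime := ⟨hp⟩
  have hA' : ((p : Qb))⁻¹ ∉ A := by
    intro h
    have h1 : (p : Qb) ∈ A.nonunits := hA
    have h2 : (p : Qb) ≠ 0 := Nat.cast_ne_zero.2 hp.ne_zero
    have h3 := (ValuationSubring.mem_nonunits_iff_exists_mem_maximalIdeal).1 h1
    obtain ⟨ha, hm⟩ := h3
    apply (IsLocalRing.mem_maximalIdeal _).1 hm
    exact IsUnit.of_mul_eq_one (⟨_, h⟩ : A) (Subtype.ext (mul_inv_cancel₀ h2))
  have halg : IsAlgebraic ℤ c := by
    have h1 : IsAlgebraic ℚ c := (AlgebraicClosure.isAlgebraic ℚ).isAlgebraic _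
    exact (IsFractionRing.isAlgebraic_iff ℤ ℚ Qb).mpr h1
  obtain ⟨d, hd0, hd⟩ := halg.exists_integral_multiple
  have hdA : d • c ∈ A := by
    have h1 : IsIntegral A (d • c) := hd.tower_top
    obtain ⟨a, ha⟩ := (IsIntegrallyClosed.isIntegral_iff (R := A) (K := Qb)).1 h1
    rw [← ha]
    exact a.2
  have hdA' : (d.natAbs : Qb) * c ∈ A := by
    rcases Int.natAbs_eq d with h | h
    · have : (d.natAbs : Qb) * c = d • c := by
        rw [zsmul_eq_mul]
        congr 1
        conv_rhs => rw [h]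
        simp
      rw [this]
      exact hdA
    · have : (d.natAbs : Qb) * c = -(d • c) := by
        rw [zsmul_eq_mul, ← neg_mul]
        congr 1
        conv_rhs => rw [h]
        simp
      rw [this]
      exact A.neg_mem _ hdA
  obtain ⟨e, m, hm, hdm⟩ := Nat.exists_eq_pow_mul_and_not_dvd (Int.natAbs_ne_zero.2 hd0) p hp.ne_one
  have hmc : m.Coprime p := ((Nat.Prime.coprime_iff_not_dvd hp).2 hm).symm
  have hmi : ((m : Qb))⁻¹ ∈ A := S19.Formal.rloc_inv_mem p A hA' hmc
  have hm0 : (m : Qb) ≠ 0 := by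
    intro h0
    have : m = 0 := by exact_mod_cast h0
    exact hm (this ▸ dvd_zero p)
  refine ⟨e, fun N' hN' => ?_⟩
  have : (p : Qb) ^ N' * c = (p : Qb) ^ (N' - e) * (((m : Qb))⁻¹ * ((d.natAbs : Qb) * c)) := by
    rw [hdm]
    push_cast
    have : (p : Qb) ^ N' = (p : Qb) ^ (N' - e) * (p : Qb) ^ e := by
      rw [← pow_add, Nat.sub_add_cancel hN']
    rw [this]
    field_simp
  rw [this]
  exact A.mul_mem _ _ (A.pow_mem (natCast_mem A p) _) (A.mul_mem _ _ hmi hdA')

theorem exists_measure {A : ValuationSubring Qb} {X : Type} [AddCommGroup X] [Fintype X]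
    {act : Gal →* AddMonoid.End X} {H : Type} (F : FOrd A X act H) (u : X → Qb)
    (hu : ∀ h, ∑ x, u x * F.ev h x ∈ A) (χ : X → Qb) (hχ0 : χ 0 = 1)
    (hχ : ∀ x y, χ (x + y) = χ x * χ y) (k : ℕ) :
    ∃ U : X → Qb, (∀ h, ∑ x, U x * F.ev h x ∈ A) ∧ ∑ x, U x * χ x = (∑ x, u x * χ x) ^ k := by
  classical
  induction k with
  | zero =>
    refine ⟨Pi.single 0 1, fun h => ?_, ?_⟩
    · have : ∑ x, (Pi.single 0 1 : X → Qb) x * F.ev h x = F.ev h 0 := by
        rw [Finset.sum_eq_single 0]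
        · simp
        · intro b _ hb
          simp [hb]
        · intro h0
          exact absurd (Finset.mem_univ _) h0
      rw [this]
      exact F.int h 0
    · rw [Finset.sum_eq_single 0]
      · simp [hχ0]
      · intro b _ hb
        simp [hb]
      · intro h0
        exact absurd (Finset.mem_univ _) h0
  | succ k ih =>
    obtain ⟨U, hU1, hU2⟩ := ih
    -- the key change of variables
    have key : ∀ g : X → Qb, ∑ z, (∑ x, U x * u (z - x)) * g z
        = ∑ x, ∑ y, U x * u y * g (x + y) := by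
      intro g
      simp_rw [Finset.sum_mul]
      rw [Finset.sum_comm]
      refine Finset.sum_congr rfl fun x _ => ?_
      exact Fintype.sum_equiv (Equiv.subRight x) _ _ (fun z => by simp)
    refine ⟨fun z => ∑ x, U x * u (z - x), fun h => ?_, ?_⟩
    · rw [key]
      obtain ⟨n, a, b, hab⟩ := F.comul h
      have : ∑ x, ∑ y, U x * u y * F.ev h (x + y)
          = ∑ i, (∑ x, U x * F.ev (a i) x) * (∑ y, u y * F.ev (b i) y) := by
        simp_rw [Finset.sum_mul_sum, hab, Finset.mul_sum]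
        rw [Finset.sum_comm (s := (Finset.univ : Finset (Fin n)))]
        refine Finset.sum_congr rfl fun x _ => ?_
        rw [Finset.sum_comm]
        refine Finset.sum_congr rfl fun i _ => Finset.sum_congr rfl fun y _ => ?_
        ring
      rw [this]
      exact A.toSubring.sum_mem fun i _ => A.mul_mem _ _ (hU1 _) (hu _)
    · rw [key, pow_succ, ← hU2, Finset.sum_mul_sum]
      refine Finset.sum_congr rfl fun x _ => Finset.sum_congr rfl fun y _ => ?_
      rw [hχ]
      ring

theorem pow_bound {p : ℕ} (hp : p.Prime) (A : ValuationSubring Qb) (hA : A.LiesOverPrime p)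
    {X : Type} [AddCommGroup X] [Fintype X] {act : Gal →* AddMonoid.End X} {H : Type}
    (F : FOrd A X act H) (u : X → Qb) (hu : ∀ h, ∑ x, u x * F.ev h x ∈ A) (χ : X → Qb)
    (hχ0 : χ 0 = 1) (hχ : ∀ x y, χ (x + y) = χ x * χ y) :
    ∃ N : ℕ, ∀ k : ℕ, (p : Qb) ^ N * (∑ x, u x * χ x) ^ k ∈ A := by
  classical
  obtain ⟨n, c, h, hc⟩ := F.span χ
  choose Nf hNf using fun i => exists_pow_mul_mem hp A hA (c i)
  refine ⟨Finset.univ.sup Nf, fun k => ?_⟩
  obtain ⟨U, hU1, hU2⟩ := exists_measure F u hu χ hχ0 hχ k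
  rw [← hU2]
  have : (p : Qb) ^ (Finset.univ.sup Nf) * ∑ x, U x * χ x
      = ∑ i, ((p : Qb) ^ (Finset.univ.sup Nf) * c i) * ∑ x, U x * F.ev (h i) x := by
    simp_rw [hc, Finset.mul_sum]
    rw [Finset.sum_comm]
    refine Finset.sum_congr rfl fun x _ => Finset.sum_congr rfl fun y _ => ?_
    ring
  rw [this]
  exact A.toSubring.sum_mem fun i _ =>
    A.mul_mem _ _ (hNf i _ (Finset.le_sup (Finset.mem_univ i))) (hU1 _)

end Fermat.Agent.S33.O
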