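import Fermat.Agent.S33.O.Defs

set_option autoImplicit false

/-!
# S33 / O / Root (L2) : `p ^ N ((ζ - 1) / p) ^ k` is unbounded
-/

namespace Fermat.Agent.S33.O

theorem root_mem_of_pow_eq_one (A : ValuationSubring Qb) {m : ℕ} (hm : m ≠ 0) {a : Qb}
    (ha : a ^ m = 1) : a ∈ A := by
  rw [← A.valuation_le_one_iff]
  have h1 : A.valuation a ^ m = 1 := by rw [← map_pow, ha, map_one]
  exact le_of_eq ((pow_eq_one_iff_of_nonneg zero_le hm).mp h1)

theorem root_geom_mem (A : ValuationSubring Qb) {a : Qb} (ha : a ∈ A) (n : ℕ) :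
    ∑ i ∈ Finset.range n, a ^ i ∈ A :=
  Subring.sum_mem A.toSubring fun i _ => A.pow_mem ha i

/-- `p ∈ (ζ - 1) ^ 2 A` for a non trivial `p`-power root of unity, `p` odd. -/
theorem root_sq_dvd {p : ℕ} (hp : p.Prime) (hp2 : p ≠ 2) (A : ValuationSubring Qb) (r : ℕ) :
    ∀ ζ : Qb, ζ ^ p ^ r = 1 → ζ ≠ 1 → ∃ a ∈ A, (p : Qb) = (ζ - 1) ^ 2 * a := by
  induction r with
  | zero =>
    intro ζ hζ hζ1
    exact absurd (by simpa using hζ) hζ1
  | succ r ih =>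
    intro ζ hζ hζ1
    have hζA : ζ ∈ A := root_mem_of_pow_eq_one A (pow_ne_zero _ hp.ne_zero) hζ
    by_cases h1 : ζ ^ p = 1
    · have : Fact p.Prime := ⟨hp⟩
      have ho : orderOf ζ = p := orderOf_eq_prime h1 hζ1
      have hprim : IsPrimitiveRoot ζ p := ho ▸ IsPrimitiveRoot.orderOf ζ
      obtain ⟨j, rfl⟩ : ∃ j, p = j + 2 + 1 := ⟨p - 3, by have := hp.two_le; omega⟩
      have hprod := hprim.prod_one_sub_pow_eq_order
      have hfac : ∀ i : ℕ, 1 - ζ ^ (i + 1) = (1 - ζ) * ∑ t ∈ Finset.range (i + 1), ζ ^ t := by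
        intro i
        have := mul_neg_geom_sum ζ (i + 1)
        rw [← this, mul_comm]
      rw [Finset.prod_congr rfl (fun i _ => hfac i), Finset.prod_mul_distrib, Finset.prod_const,
        Finset.card_range] at hprod
      refine ⟨(1 - ζ) ^ j * ∏ i ∈ Finset.range (j + 2), ∑ t ∈ Finset.range (i + 1), ζ ^ t,
        A.mul_mem _ _ (A.pow_mem (A.sub_mem A.one_mem hζA) j)
          (Subring.prod_mem A.toSubring fun i _ => root_geom_mem A hζA _), ?_⟩
      have hc : (((j + 2 + 1 : ℕ) : Qb)) = ((j + 2 : ℕ) : Qb) + 1 := by push_cast; ring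
      rw [hc, ← hprod]
      ring
    · have h2 : (ζ ^ p) ^ p ^ r = 1 := by rw [← pow_mul, ← pow_succ']; exact hζ
      obtain ⟨a, ha, hpa⟩ := ih (ζ ^ p) h2 h1
      refine ⟨(∑ t ∈ Finset.range p, ζ ^ t) ^ 2 * a,
        A.mul_mem _ _ (A.pow_mem (root_geom_mem A hζA _) 2) ha, ?_⟩
      have := geom_sum_mul ζ p
      rw [hpa, ← this]
      ring

/-- **(L2)**. -/
theorem no_bound {p : ℕ} (hp : p.Prime) (hp2 : p ≠ 2) (A : ValuationSubring Qb)
    (hA : A.LiesOverPrime p) (ζ : Qb) (r : ℕ) (hζ : ζ ^ p ^ r = 1) (hζ1 : ζ ≠ 1) (N : ℕ)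
    (h : ∀ k : ℕ, (p : Qb) ^ N * ((ζ - 1) / p) ^ k ∈ A) : False := by
  obtain ⟨a, ha, hpa⟩ := root_sq_dvd hp hp2 A r ζ hζ hζ1
  have hp0 : (p : Qb) ≠ 0 := Nat.cast_ne_zero.2 hp.ne_zero
  have hz0 : ζ - 1 ≠ 0 := sub_ne_zero.2 hζ1
  have hb := h (2 * (N + 1))
  set b : Qb := (p : Qb) ^ N * ((ζ - 1) / p) ^ (2 * (N + 1)) with hbdef
  -- `1 = p * (b * a ^ (N+1))`
  have h1 : (p : Qb) * (b * a ^ (N + 1)) = 1 := by
    have h2 : ((ζ - 1) / p) ^ 2 * ((p : Qb) * a) = 1 := by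
      have : (p : Qb) * a = (p : Qb) ^ 2 / (ζ - 1) ^ 2 := by
        field_simp
        linear_combination -hpa
      rw [this]
      field_simp
    have h3 : ((ζ - 1) / p) ^ (2 * (N + 1)) * ((p : Qb) * a) ^ (N + 1) = 1 := by
      rw [pow_mul, ← mul_pow, h2, one_pow]
    have h4 : (p : Qb) * (b * a ^ (N + 1)) =
        (p : Qb) ^ N * (((ζ - 1) / p) ^ (2 * (N + 1)) * ((p : Qb) * a) ^ (N + 1)) / (p : Qb) ^ N := by
      rw [hbdef]
      field_simp
      ring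
    rw [h4, h3, mul_one, div_self (pow_ne_zero _ hp0)]
  have hv : A.valuation (p : Qb) < 1 := (ValuationSubring.mem_nonunits_iff A).1 hA
  have hv2 : A.valuation (b * a ^ (N + 1)) ≤ 1 :=
    (A.valuation_le_one_iff _).2 (A.mul_mem _ _ hb (A.pow_mem ha _))
  have := congrArg A.valuation h1
  rw [map_mul, map_one] at this
  exact absurd this (ne_of_lt (mul_lt_one_of_lt_of_le hv hv2))

end Fermat.Agent.S33.O
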