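import Fermat.Agent.S33.O.C
import Fermat.Agent.S33.O.Pow
import Fermat.Agent.S33.O.Root
import Fermat.Agent.S33.O.K

set_option autoImplicit false

/-!
# S33 / O / Core : a finite `p`-group with a function order has no trivial inertia subquotient
inside `I.X`
-/

namespace Fermat.Agent.S33.O

theorem nt_core {p : ℕ} (hp : p.Prime) (hp2 : p ≠ 2) (A : ValuationSubring Qb)
    (hA : A.LiesOverPrime p) {X : Type} [AddCommGroup X] [Finite X]
    (act : Gal →* AddMonoid.End X) (r : ℕ) (hr : ∀ x : X, p ^ r • x = 0)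
    {H : Type} (F : FOrd A X act H) :
    NT (A.inertiaSubgroupIn ℚ) act (aug (A.inertiaSubgroupIn ℚ) act) := by
  classical
  intro K1 K2 h21 h1K hst htriv x hx1
  by_contra hx2
  have : Fintype X := Fintype.ofFinite X
  set I := A.inertiaSubgroupIn ℚ with hI
  have hp0 : (p : Qb) ≠ 0 := by exact_mod_cast hp.ne_zero
  -- the character
  have hexp : Monoid.exponent (Multiplicative X) ≠ 0 := Monoid.exponent_ne_zero_of_finite
  have : NeZero ((Monoid.exponent (Multiplicative X) : ℕ) : Qb) := ⟨by exact_mod_cast hexp⟩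
  have hroots : HasEnoughRootsOfUnity Qb (Monoid.exponent (Multiplicative X)) := inferInstance
  have hz' : Multiplicative.ofAdd x ∉ AddSubgroup.toSubgroup K2 := hx2
  have h3 := (CommGroup.forall_monoidHom_apply_eq_one_iff Qb (AddSubgroup.toSubgroup K2)
    (Multiplicative.ofAdd x)).not.mpr hz'
  push Not at h3
  obtain ⟨φ, hφK, hφz⟩ := h3
  set χ : X → Qb := fun z => ((φ (Multiplicative.ofAdd z) : Qbˣ) : Qb) with hχdef
  have hχ0 : χ 0 = 1 := by
    show ((φ (Multiplicative.ofAdd 0) : Qbˣ) : Qb) = 1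
    rw [ofAdd_zero, map_one, Units.val_one]
  have hχ : ∀ a b, χ (a + b) = χ a * χ b := by
    intro a b
    show ((φ (Multiplicative.ofAdd (a + b)) : Qbˣ) : Qb) = _
    rw [ofAdd_add, map_mul, Units.val_mul]
  have hχK : ∀ k ∈ K2, χ k = 1 := fun k hk =>
    congrArg Units.val (hφK (Multiplicative.ofAdd k) hk)
  have hχx : χ x ≠ 1 := fun h => hφz (Units.ext h)
  have hχpow : χ x ^ p ^ r = 1 := by
    have h1 : ∀ n : ℕ, χ (n • x) = χ x ^ n := by
      intro n
      induction n with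
      | zero => rw [zero_smul, pow_zero, hχ0]
      | succ n ih => rw [succ_nsmul, hχ, ih, pow_succ]
    rw [← h1, hr, hχ0]
  -- the orbit
  let O : Type := {y : X // ∃ σ ∈ I, y = act σ x}
  have : Nonempty O := ⟨⟨x, 1, I.one_mem, by rw [map_one]; rfl⟩⟩
  have hOmem : ∀ y : O, y.1 - x ∈ K2 := by
    rintro ⟨y, σ, hσ, rfl⟩
    exact htriv σ hσ x hx1
  have hOaug : ∀ y : O, y.1 ∈ aug I act := by
    intro y
    have : y.1 = x + (y.1 - x) := by abel
    rw [this]
    exact (aug I act).add_mem (h1K hx1) (h1K (h21 (hOmem y)))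
  let m : Gal → O → O := fun σ y =>
    if hσ : σ ∈ I then ⟨act σ y.1, by
      obtain ⟨τ, hτ, hy⟩ := y.2
      exact ⟨σ * τ, I.mul_mem hσ hτ, by rw [hy, map_mul]; rfl⟩⟩ else y
  have hm : ∀ σ ∈ I, ∀ y : O, (m σ y).1 = act σ y.1 := by
    intro σ hσ y
    simp only [m, dif_pos hσ]
  obtain ⟨n, g, hg⟩ := F.fg
  let b : Fin n → O → Qb := fun i y => F.ev (g i) y.1 - F.ev (g i) 0
  have hfix0 : ∀ (σ : Gal) h, σ (F.ev h 0) = F.ev h 0 := by
    intro σ h
    rw [← F.equiv, map_zero]
  obtain ⟨c, hc1, hcS⟩ := exists_c hp A hA m (Finset.univ.image b)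
    (by
      intro s hs y
      obtain ⟨i, -, rfl⟩ := Finset.mem_image.mp hs
      exact aug_le_K F y.1 (hOaug y) (g i))
    (by
      intro σ hσ s hs y
      obtain ⟨i, -, rfl⟩ := Finset.mem_image.mp hs
      show F.ev (g i) (m σ y).1 - F.ev (g i) 0 = σ (F.ev (g i) y.1 - F.ev (g i) 0)
      rw [hm σ hσ, F.equiv, map_sub, hfix0])
  -- the measure
  let u : X → Qb := fun z => (∑ y : O, if y.1 = z then c y else 0) - if z = 0 then 1 / (p : Qb) else 0
  have hsum : ∀ G : X → Qb, ∑ z, u z * G z = ∑ y : O, c y * G y.1 - G 0 / (p : Qb) := by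
    intro G
    simp only [u, sub_mul, Finset.sum_sub_distrib, Finset.sum_mul]
    congr 1
    · rw [Finset.sum_comm]
      refine Finset.sum_congr rfl fun y _ => ?_
      simp only [ite_mul, zero_mul]
      rw [Finset.sum_ite_eq]
      simp
    · simp only [ite_mul, zero_mul]
      rw [Finset.sum_ite_eq']
      simp [div_eq_mul_inv, mul_comm]
  have hu : ∀ h, ∑ z, u z * F.ev h z ∈ A := by
    intro h
    obtain ⟨rr, hrA, hrr⟩ := hg h
    rw [hsum]
    have e1 : ∑ y : O, c y * F.ev h y.1 - F.ev h 0 / (p : Qb) =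
        ∑ i, rr i * ∑ y : O, c y * b i y := by
      have e2 : F.ev h 0 / (p : Qb) = ∑ y : O, c y * F.ev h 0 := by
        rw [← Finset.sum_mul, hc1]; ring
      rw [e2, ← Finset.sum_sub_distrib]
      simp only [Finset.mul_sum]
      rw [Finset.sum_comm]
      refine Finset.sum_congr rfl fun y _ => ?_
      rw [hrr y.1, hrr 0, ← mul_sub, ← Finset.sum_sub_distrib, Finset.mul_sum]
      refine Finset.sum_congr rfl fun i _ => ?_
      show _ = rr i * (c y * (F.ev (g i) y.1 - F.ev (g i) 0))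
      ring
    rw [e1]
    refine A.toSubring.sum_mem fun i _ => A.mul_mem _ _ (hrA i) ?_
    exact hcS (b i) (Finset.mem_image_of_mem b (Finset.mem_univ i))
  have hχu : ∑ z, u z * χ z = (χ x - 1) / (p : Qb) := by
    rw [hsum, hχ0]
    have e1 : ∑ y : O, c y * χ y.1 = χ x / (p : Qb) := by
      have : ∀ y : O, c y * χ y.1 = c y * χ x := by
        intro y
        have e2 : y.1 = x + (y.1 - x) := by abel
        rw [e2, hχ, hχK _ (hOmem y), mul_one]
      rw [Finset.sum_congr rfl fun y _ => this y, ← Finset.sum_mul, hc1]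
      ring
    rw [e1]; ring
  obtain ⟨N, hN⟩ := pow_bound hp A hA F u hu χ hχ0 hχ
  rw [hχu] at hN
  exact no_bound hp hp2 A hA (χ x) r hχpow hχx N hN

end Fermat.Agent.S33.O
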