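import Mathlib
import Fermat.Agent.S33.UT
import Fermat.Prelude.Def_FLTPrelim_Ramification

set_option autoImplicit false

/-!
# S33 / O / Defs : "function orders" on a finite Galois module

Chapter (O) : a finite Galois module `X` with a Hopf order over `ℤ_(p)` (`p` odd) satisfies
`NT I (aug I)` (`I` = inertia at `A ∣ p`).  No sub/quotient Hopf orders are needed:
if `x ∈ K1 \ K2`, take a character `χ` of `X / K2` with `χ x = ζ ≠ 1` and a measure
`u = ∑_{y ∈ I x} c_y [y] - (1/p) [0]`, `∑ c_y = 1/p`, which is integral on the order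
(`exists_c`: exchange lemma over the valuation ring + "the inertia field is unramified").
All convolution powers of `u` are integral on the order, `χ` lies in `p ^ (-N)` times the order,
so `p ^ N ((ζ - 1) / p) ^ k ∈ A` for all `k`: absurd for `p` odd.
-/

namespace Fermat.Agent.S33.O

abbrev Qb : Type := AlgebraicClosure ℚ
abbrev Gal : Type := Qb ≃ₐ[ℚ] Qb

/-- a family `ev h : X → ℚ̄` (`h : H`) of integral equivariant functions, closed under
comultiplication, spanning all functions, finitely generated over `A`. -/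
structure FOrd (A : ValuationSubring Qb) (X : Type) [AddCommGroup X]
    (act : Gal →* AddMonoid.End X) (H : Type) where
  ev : H → X → Qb
  int : ∀ h x, ev h x ∈ A
  equiv : ∀ (σ : Gal) h x, ev h (act σ x) = σ (ev h x)
  comul : ∀ h, ∃ (n : ℕ) (a b : Fin n → H), ∀ x y, ev h (x + y) = ∑ i, ev (a i) x * ev (b i) y
  span : ∀ g : X → Qb, ∃ (n : ℕ) (c : Fin n → Qb) (h : Fin n → H),
    ∀ x, g x = ∑ i, c i * ev (h i) x
  fg : ∃ (n : ℕ) (g : Fin n → H), ∀ h, ∃ r : Fin n → Qb, (∀ i, r i ∈ A) ∧
    ∀ x, ev h x = ∑ i, r i * ev (g i) x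

end Fermat.Agent.S33.O
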