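import Fermat.Agent.S19.Formal.Core

set_option autoImplicit false

/-!
# S33 / (O) / O4 : LEMMA A

A point of order `p` of a Hopf order all of whose functions are constant modulo `p` is trivial
(`p > 2`).  Newton's forward difference formula; no cocommutativity.
-/

namespace Fermat.Agent.S33.O

open Fermat.Agent.S19.Formal

/-- `x ∈ p ^ j A`. -/
def Dv (A : ValuationSubring Qb) (p j : ℕ) (x : Qb) : Prop := ∃ a ∈ A, x = (p : Qb) ^ j * a

namespace Dv

variable {A : ValuationSubring Qb} {p j : ℕ}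

theorem zero : Dv A p j 0 := ⟨0, A.zero_mem, by simp⟩

theorem add {x y : Qb} (hx : Dv A p j x) (hy : Dv A p j y) : Dv A p j (x + y) := by
  obtain ⟨a, ha, rfl⟩ := hx
  obtain ⟨b, hb, rfl⟩ := hy
  exact ⟨a + b, A.add_mem _ _ ha hb, by ring⟩

theorem neg {x : Qb} (hx : Dv A p j x) : Dv A p j (-x) := by
  obtain ⟨a, ha, rfl⟩ := hx
  exact ⟨-a, A.neg_mem _ ha, by ring⟩

theorem sum {ι : Type*} (s : Finset ι) (f : ι → Qb) (h : ∀ i ∈ s, Dv A p j (f i)) :
    Dv A p j (∑ i ∈ s, f i) := by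
  classical
  induction s using Finset.induction_on with
  | empty => simpa using zero
  | insert a s ha ih =>
    rw [Finset.sum_insert ha]
    exact (h a (Finset.mem_insert_self a s)).add
      (ih fun i hi => h i (Finset.mem_insert_of_mem hi))

theorem mul_left {x : Qb} (hx : Dv A p j x) {c : Qb} (hc : c ∈ A) : Dv A p j (c * x) := by
  obtain ⟨a, ha, rfl⟩ := hx
  exact ⟨c * a, A.mul_mem _ _ hc ha, by ring⟩

theorem mono {x : Qb} {j' : ℕ} (hjj : j' ≤ j) (hx : Dv A p j x) : Dv A p j' x := by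
  obtain ⟨a, ha, rfl⟩ := hx
  refine ⟨(p : Qb) ^ (j - j') * a, A.mul_mem _ _ (A.pow_mem (natCast_mem A p) _) ha, ?_⟩
  rw [← mul_assoc, ← pow_add, Nat.add_sub_cancel' hjj]

theorem pmul {x : Qb} (hx : Dv A p j x) : Dv A p (j + 1) ((p : Qb) * x) := by
  obtain ⟨a, ha, rfl⟩ := hx
  exact ⟨a, ha, by ring⟩

theorem of_pmul (hp : p ≠ 0) {x : Qb} (hx : Dv A p (j + 1) ((p : Qb) * x)) : Dv A p j x := by
  obtain ⟨a, ha, h⟩ := hx
  refine ⟨a, ha, ?_⟩
  have hp' : (p : Qb) ≠ 0 := Nat.cast_ne_zero.2 hp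
  apply mul_left_cancel₀ hp'
  rw [h]
  ring

end Dv

/-- `⋂ p ^ k A = 0`. -/
theorem eq_zero_of_forall_dv {p : ℕ} (hp : p.Prime) (A : ValuationSubring Qb)
    (hA : ((p : Qb))⁻¹ ∉ A) (x : Qb) (h : ∀ k, Dv A p k x) : x = 0 := by
  by_contra hx
  have hp0 : (p : Qb) ≠ 0 := Nat.cast_ne_zero.2 hp.ne_zero
  -- `d * x⁻¹` is integral over `ℤ`
  have halg : IsAlgebraic ℤ x⁻¹ := by
    have h1 : IsAlgebraic ℚ x⁻¹ := (AlgebraicClosure.isAlgebraic ℚ).isAlgebraic _
    exact (IsFractionRing.isAlgebraic_iff ℤ ℚ Qb).mpr h1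
  obtain ⟨d, hd0, hd⟩ := halg.exists_integral_multiple
  have hdA : d • x⁻¹ ∈ A := by
    have h1 : IsIntegral A (d • x⁻¹) := hd.tower_top
    obtain ⟨a, ha⟩ := (IsIntegrallyClosed.isIntegral_iff (R := A) (K := Qb)).1 h1
    rw [← ha]
    exact a.2
  -- so `d ∈ p ^ k A` for all `k`
  have hdk : ∀ k, Dv A p k (d : Qb) := by
    intro k
    have h1 := (h k).mul_left hdA
    have h2 : d • x⁻¹ * x = (d : Qb) := by
      rw [zsmul_eq_mul, mul_assoc, inv_mul_cancel₀ hx, mul_one]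
    rwa [h2] at h1
  -- contradiction with the `p`-adic valuation of `d`
  have hfin : FiniteMultiplicity (p : ℤ) d :=
    Int.finiteMultiplicity_iff.2 ⟨by
      rw [Int.natAbs_natCast]; exact hp.one_lt.ne', hd0⟩
  obtain ⟨k, hk⟩ := hfin
  -- `d = p ^ j * d'` with `p ∤ d'`
  obtain ⟨j, d', hd', hdd⟩ : ∃ (j : ℕ) (d' : ℤ), ¬ (p : ℤ) ∣ d' ∧ d = (p : ℤ) ^ j * d' := by
    obtain ⟨j, d', h1, h2⟩ := WfDvdMonoid.max_power_factor hd0
      (Nat.prime_iff_prime_int.1 hp).irreducible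
    exact ⟨j, d', h1, h2⟩
  obtain ⟨a, ha, hda⟩ := hdk (j + 1)
  have h3 : (d' : Qb) = (p : Qb) * a := by
    have h4 : (p : Qb) ^ j * (d' : Qb) = (p : Qb) ^ j * ((p : Qb) * a) := by
      have : (d : Qb) = (p : Qb) ^ j * (d' : Qb) := by
        rw [hdd]; push_cast; ring
      rw [← this, hda]; ring
    exact mul_left_cancel₀ (pow_ne_zero _ hp0) h4
  -- Bezout
  have hcop : IsCoprime (p : ℤ) d' :=
    ((Nat.prime_iff_prime_int.1 hp).coprime_iff_not_dvd).2 hd'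
  obtain ⟨u, v, huv⟩ := hcop
  apply hA
  have h5 : ((p : Qb))⁻¹ = (u : Qb) + (v : Qb) * a := by
    have h6 : (u : Qb) * (p : Qb) + (v : Qb) * (d' : Qb) = 1 := by exact_mod_cast huv
    rw [h3] at h6
    field_simp
    linear_combination -h6
  rw [h5]
  exact A.add_mem _ _ (intCast_mem A u) (A.mul_mem _ _ (intCast_mem A v) ha)

/-- **LEMMA A**. -/
theorem lemmaA {p : ℕ} (hp : p.Prime) (hp2 : p ≠ 2) (A : ValuationSubring Qb)
    (hA : ((p : Qb))⁻¹ ∉ A)
    {Z : Type} [AddCommGroup Z] (ℬ : Set (Z → Qb))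
    (hval : ∀ φ ∈ ℬ, ∀ z, φ z ∈ A)
    (hcl : ∀ φ ∈ ℬ, ∀ z, ∃ a ∈ A, φ z - φ 0 = (p : Qb) * a)
    (hcomul : ∀ φ ∈ ℬ, ∃ (n : ℕ) (u v : Fin n → Z → Qb), (∀ i, u i ∈ ℬ) ∧ (∀ i, v i ∈ ℬ) ∧
      ∀ z z', φ (z + z') = ∑ i, u i z * v i z')
    (y : Z) (hy : p • y = 0) : ∀ φ ∈ ℬ, φ y = φ 0 := by
  classical
  let τ : Module.End Qb (Z → Qb) := LinearMap.funLeft Qb Qb (fun z => z + y)
  let Δ : Module.End Qb (Z → Qb) := τ - 1
  have hτ : ∀ ψ z, τ ψ z = ψ (z + y) := fun _ _ => rfl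
  have hΔ : ∀ ψ z, Δ ψ z = ψ (z + y) - ψ z := fun _ _ => rfl
  have hτpow : ∀ (m : ℕ) ψ z, (τ ^ m) ψ z = ψ (z + m • y) := by
    intro m
    induction m with
    | zero => intro ψ z; simp
    | succ m ih =>
      intro ψ z
      rw [pow_succ, Module.End.mul_apply, ih, hτ, succ_nsmul, add_assoc]
  -- the class of functions `p ^ j • span_A ℬ`
  let S : ℕ → (Z → Qb) → Prop := fun j ψ =>
    ∃ (n : ℕ) (c : Fin n → Qb) (w : Fin n → Z → Qb), (∀ i, Dv A p j (c i)) ∧ (∀ i, w i ∈ ℬ) ∧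
      ψ = ∑ i, c i • w i
  have hSval : ∀ j ψ, S j ψ → ∀ z, Dv A p j (ψ z) := by
    rintro j ψ ⟨n, c, w, hc, hw, rfl⟩ z
    rw [Finset.sum_apply]
    refine Dv.sum _ _ fun i _ => ?_
    rw [Pi.smul_apply, smul_eq_mul, mul_comm]
    exact (hc i).mul_left (hval _ (hw i) z)
  -- one step
  have hstep : ∀ k, (∀ φ ∈ ℬ, Dv A p k (φ y - φ 0)) → ∀ j ψ, S j ψ → S (j + k) (Δ ψ) := by
    rintro k hk j ψ ⟨n, c, w, hc, hw, rfl⟩
    choose N u v hu hv huv using fun i => hcomul (w i) (hw i)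
    refine ⟨_, fun q => c ((finSigmaFinEquiv (n := N)).symm q).1 *
        (v _ ((finSigmaFinEquiv (n := N)).symm q).2 y - v _ ((finSigmaFinEquiv (n := N)).symm q).2 0),
      fun q => u _ ((finSigmaFinEquiv (n := N)).symm q).2, ?_, ?_, ?_⟩
    · intro q
      obtain ⟨a, ha, h1⟩ := hc ((finSigmaFinEquiv (n := N)).symm q).1
      obtain ⟨b, hb, h2⟩ := hk _ (hv _ ((finSigmaFinEquiv (n := N)).symm q).2)
      exact ⟨a * b, A.mul_mem _ _ ha hb, by beta_reduce; rw [h1, h2]; ring⟩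
    · intro q
      exact hu _ _
    · rw [(finSigmaFinEquiv (n := N)).symm.sum_comp
        (fun q : (i : Fin n) × Fin (N i) => (c q.1 * (v q.1 q.2 y - v q.1 q.2 0)) • u q.1 q.2),
        Fintype.sum_sigma, map_sum]
      refine Finset.sum_congr rfl fun i _ => ?_
      rw [map_smul]
      funext z
      rw [Pi.smul_apply, hΔ, Finset.sum_apply, huv]
      have h0 : w i z = ∑ t, u i t z * v i t 0 := by
        conv_lhs => rw [← add_zero z, huv]
      rw [h0, ← Finset.sum_sub_distrib, smul_eq_mul, Finset.mul_sum]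
      refine Finset.sum_congr rfl fun t _ => ?_
      rw [Pi.smul_apply, smul_eq_mul]
      ring
  have hpow : ∀ k, (∀ φ ∈ ℬ, Dv A p k (φ y - φ 0)) → ∀ φ ∈ ℬ, ∀ m, S (m * k) ((Δ ^ m) φ) := by
    intro k hk φ hφ m
    induction m with
    | zero =>
      refine ⟨1, fun _ => 1, fun _ => φ, fun _ => ⟨1, A.one_mem, by simp⟩, fun _ => hφ, ?_⟩
      simp
    | succ m ih =>
      rw [pow_succ', Module.End.mul_apply, Nat.succ_mul]
      exact hstep k hk _ _ ih
  -- Newton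
  have hnewton : ∀ ψ : Z → Qb, ∑ m ∈ Finset.range (p + 1), (p.choose m : Qb) * (Δ ^ m) ψ 0 = ψ 0 := by
    intro ψ
    have h1 : τ = Δ + 1 := by simp [Δ]
    have h2 : τ ^ p = ∑ m ∈ Finset.range (p + 1), Δ ^ m * 1 ^ (p - m) * (p.choose m : Module.End Qb (Z → Qb)) := by
      rw [h1]
      exact (Commute.one_right Δ).add_pow p
    have h3 := hτpow p ψ 0
    rw [hy, add_zero, h2] at h3
    rw [← h3, LinearMap.sum_apply, Finset.sum_apply]
    refine Finset.sum_congr rfl fun m _ => ?_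
    rw [one_pow, mul_one, Module.End.mul_apply, Module.End.natCast_apply, map_nsmul, Pi.smul_apply,
      nsmul_eq_mul]
  -- induction on the depth
  obtain ⟨q, rfl⟩ : ∃ q, p = q + 3 := by
    have := hp.two_le
    exact ⟨p - 3, by omega⟩
  have hD : ∀ k, ∀ φ ∈ ℬ, Dv A (q + 3) (k + 1) (φ y - φ 0) := by
    intro k
    induction k with
    | zero =>
      intro φ hφ
      obtain ⟨a, ha, h⟩ := hcl φ hφ y
      exact ⟨a, ha, by rw [h]; ring⟩
    | succ k ih =>
      intro φ hφ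
      have hN := hnewton φ
      rw [Finset.sum_range_succ, Finset.sum_range_succ', Finset.sum_range_succ'] at hN
      have hS := fun m => hSval _ _ (hpow (k + 1) ih φ hφ m) 0
      have e0 : (Δ ^ 0) φ 0 = φ 0 := by simp
      have e1 : (Δ ^ (0 + 1)) φ 0 = φ y - φ 0 := by
        rw [zero_add, pow_one, hΔ, zero_add]
      rw [e0, e1] at hN
      simp only [Nat.choose_zero_right, Nat.cast_one, one_mul, zero_add, Nat.choose_one_right,
        Nat.choose_self] at hN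
      apply Dv.of_pmul hp.ne_zero
      have e2 : ((q + 3 : ℕ) : Qb) * (φ y - φ 0) =
          -(∑ m ∈ Finset.range (q + 1), (((q + 3).choose (m + 1 + 1) : ℕ) : Qb) * (Δ ^ (m + 1 + 1)) φ 0
            + (Δ ^ (q + 3)) φ 0) := by
        linear_combination hN
      rw [e2]
      apply Dv.neg
      apply Dv.add
      · refine Dv.sum _ _ fun m hm => ?_
        have hm' : m < q + 1 := Finset.mem_range.1 hm
        obtain ⟨c, hc⟩ := hp.dvd_choose_self (k := m + 1 + 1) (by omega) (by omega)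
        rw [hc]
        push_cast
        rw [mul_assoc]
        have h4 : Dv A (q + 3) (k + 1 + 1) ((c : Qb) * (Δ ^ (m + 1 + 1)) φ 0) :=
          ((hS (m + 1 + 1)).mono (by nlinarith)).mul_left (natCast_mem A c)
        have h5 := h4.pmul
        push_cast at h5
        exact h5
      · exact (hS (q + 3)).mono (by nlinarith)
  intro φ hφ
  have h0 := eq_zero_of_forall_dv hp A hA (φ y - φ 0) (fun k => (hD k φ hφ).mono (Nat.le_succ k))
  exact sub_eq_zero.1 h0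

end Fermat.Agent.S33.O
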