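import Fermat.Agent.S19.Formal.Core

set_option autoImplicit false

/-!
# S33 / (O) : from the Hopf algebra of `Conclusion` to functions on `M` (no order structure yet)
-/

namespace Fermat.Agent.S33.O

open Fermat.Agent.S19.Formal
open scoped TensorProduct

/-- a tensor is a finite sum of pure tensors, indexed by `Fin n`. -/
theorem exists_fin_tmul {R H : Type} [CommRing R] [AddCommGroup H] [Module R H] (t : H ⊗[R] H) :
    ∃ (n : ℕ) (a b : Fin n → H), t = ∑ i, a i ⊗ₜ[R] b i := by
  induction t using TensorProduct.induction_on with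
  | zero => exact ⟨0, Fin.elim0, Fin.elim0, by simp⟩
  | tmul x y => exact ⟨1, fun _ => x, fun _ => y, by simp⟩
  | add s t hs ht =>
    obtain ⟨n, a, b, rfl⟩ := hs
    obtain ⟨m, c, d, rfl⟩ := ht
    refine ⟨n + m, Fin.append a c, Fin.append b d, ?_⟩
    rw [Fin.sum_univ_add]
    simp only [Fin.append_left, Fin.append_right]

/-- the evaluation functions attached to `Conclusion`. -/
theorem conclusion_core {p : ℕ} {M : Type} [AddCommGroup M] {act : Gal → M → M}
    (h : Conclusion p M act) :
    ∃ (H : Type) (_ : CommRing H) (_ : Algebra (Rl p) H) (_ : Module.Finite (Rl p) H)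
      (ev : H →ₐ[Rl p] (M → Qb)),
      (∀ (c : H) (σ : Gal) (x : M), ev c (act σ x) = σ (ev c x)) ∧
      (∀ x x' : M, (∀ c : H, ev c x = ev c x') → x = x') ∧
      (∀ c : H, ∃ (n : ℕ) (a b : Fin n → H), ∀ x x' : M,
        ev c (x + x') = ∑ i, ev (a i) x * ev (b i) x') := by
  obtain ⟨H, i1, i2, hfin, -, -, e, he1, he2⟩ := h
  let ev : H →ₐ[Rl p] (M → Qb) := AlgHom.pi (fun x => (e.symm x).ofConv)
  have hev : ∀ (c : H) (x : M), ev c x = (e.symm x) c := fun _ _ => rfl
  refine ⟨H, i1, inferInstance, hfin, ev, ?_, ?_, ?_⟩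
  · intro c σ x
    let g : WithConv (H →ₐ[Rl p] Qb) :=
      WithConv.toConv (((σ : Qb →ₐ[ℚ] Qb).restrictScalars (Rl p)).comp (e.symm x).ofConv)
    have h1 := he2 σ (e.symm x) g (fun _ => rfl)
    rw [e.apply_symm_apply] at h1
    rw [hev, ← h1, e.symm_apply_apply]
    rfl
  · intro x x' hx
    apply e.symm.injective
    have : (e.symm x).ofConv = (e.symm x').ofConv := AlgHom.ext hx
    exact congrArg WithConv.toConv this
  · intro c
    obtain ⟨n, a, b, hab⟩ := exists_fin_tmul (Coalgebra.comul (R := Rl p) c)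
    refine ⟨n, a, b, fun x x' => ?_⟩
    have h1 : e.symm (x + x') = e.symm x * e.symm x' := by
      apply e.injective
      rw [he1, e.apply_symm_apply, e.apply_symm_apply, e.apply_symm_apply]
    rw [hev, h1, AlgHom.convMul_apply, hab, map_sum]
    refine Finset.sum_congr rfl fun i _ => ?_
    rw [Algebra.TensorProduct.lift_tmul]
    rfl

end Fermat.Agent.S33.O
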