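import Fermat.Agent.S36.Descent.Unram

set_option autoImplicit false

/-!
# S33 / (O) / O1 : the base ring `RI A = A^{I_A}`

* `U`      : an inertia-fixed non-unit of `A` is divisible by `p` in `A`;
* `RI A`   : the subring of inertia-fixed elements of `A`;
* `RI_inj`, `RI_fix`, `RI_mem`, `RI_frac` : the four fields of `IsBase (RI A) (A.inertiaSubgroupIn ℚ)`;
* `isPrincipalIdealRing_RI` : `RI A` is a DVR with uniformiser `p`.
-/

namespace Fermat.Agent.S33.RIB

local notation "Qb" => AlgebraicClosure ℚ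

/-- **(U)**. -/
theorem U (A : ValuationSubring Qb) {p : ℕ} (hp : p.Prime) (hA : A.LiesOverPrime p) {z : Qb}
    (hfix : ∀ σ ∈ A.inertiaSubgroupIn ℚ, σ z = z) (hz : z ∈ A.nonunits) :
    ∃ a ∈ A, z = (p : Qb) * a := by
  have hzalg : IsIntegral ℚ z := ((AlgebraicClosure.isAlgebraic ℚ).isAlgebraic z).isIntegral
  have : FiniteDimensional ℚ (IntermediateField.adjoin ℚ {z}) :=
    IntermediateField.adjoin.finiteDimensional hzalg
  have hle : IntermediateField.adjoin ℚ {z}
      ≤ IntermediateField.fixedField (A.inertiaSubgroupIn ℚ) := by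
    rw [IntermediateField.adjoin_simple_le_iff, IntermediateField.mem_fixedField_iff]
    exact hfix
  have h := Fermat.Agent.S36.Unram.div_mem_of_fixed A hp hA (IntermediateField.adjoin ℚ {z})
    (fun x hx τ hτ => (IntermediateField.mem_fixedField_iff _ _).1 (hle hx) τ hτ)
    (IntermediateField.mem_adjoin_simple_self ℚ z) hz
  have hp0 : (p : Qb) ≠ 0 := Nat.cast_ne_zero.2 hp.ne_zero
  exact ⟨z / (p : Qb), h, by field_simp⟩

/-- the ring of inertia-fixed elements of `A`. -/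
def RI (A : ValuationSubring Qb) : Subring Qb where
  carrier := {z | z ∈ A ∧ ∀ σ ∈ A.inertiaSubgroupIn ℚ, σ z = z}
  mul_mem' := fun ha hb => ⟨A.mul_mem _ _ ha.1 hb.1, fun σ hσ => by
    rw [map_mul, ha.2 σ hσ, hb.2 σ hσ]⟩
  one_mem' := ⟨A.one_mem, fun σ _ => map_one σ⟩
  add_mem' := fun ha hb => ⟨A.add_mem _ _ ha.1 hb.1, fun σ hσ => by
    rw [map_add, ha.2 σ hσ, hb.2 σ hσ]⟩
  zero_mem' := ⟨A.zero_mem, fun σ _ => map_zero σ⟩
  neg_mem' := fun ha => ⟨A.neg_mem _ ha.1, fun σ hσ => by rw [map_neg, ha.2 σ hσ]⟩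

theorem mem_RI {A : ValuationSubring Qb} {z : Qb} :
    z ∈ RI A ↔ z ∈ A ∧ ∀ σ ∈ A.inertiaSubgroupIn ℚ, σ z = z := Iff.rfl

theorem algebraMap_RI (A : ValuationSubring Qb) (r : RI A) : algebraMap (RI A) Qb r = (r : Qb) :=
  rfl

/-- integral over `RI A` implies in `A`. -/
theorem mem_of_isIntegral_RI (A : ValuationSubring Qb) {z : Qb} (h : IsIntegral (RI A) z) :
    z ∈ A := by
  obtain ⟨P, hP, hz⟩ := h
  let incl : RI A →+* A := Subring.inclusion (S := RI A) (T := A.toSubring) (fun x hx => hx.1)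
  have hint : IsIntegral A z := by
    refine ⟨P.map incl, hP.map _, ?_⟩
    rw [Polynomial.eval₂_map]
    exact hz
  obtain ⟨y, hy⟩ := (IsIntegrallyClosed.isIntegral_iff (R := A) (K := Qb)).1 hint
  rw [← hy]
  exact y.2

/-- the four fields of `IsBase (RI A) (A.inertiaSubgroupIn ℚ)` (helper21's `S33/O/Defs`), stated
without importing any `Defs`. -/
theorem RI_inj (A : ValuationSubring Qb) : Function.Injective (algebraMap (RI A) Qb) :=
  Subtype.val_injective

theorem RI_fix (A : ValuationSubring Qb) : ∀ σ ∈ A.inertiaSubgroupIn ℚ, ∀ r : RI A,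
    σ (algebraMap (RI A) Qb r) = algebraMap (RI A) Qb r :=
  fun σ hσ r => r.2.2 σ hσ

theorem RI_mem (A : ValuationSubring Qb) : ∀ z : Qb, (∀ σ ∈ A.inertiaSubgroupIn ℚ, σ z = z) →
    IsIntegral (RI A) z → z ∈ (algebraMap (RI A) Qb).range :=
  fun z hfix hint => ⟨⟨z, mem_of_isIntegral_RI A hint, hfix⟩, rfl⟩

theorem RI_frac (A : ValuationSubring Qb) : ∀ z : Qb, (∀ σ ∈ A.inertiaSubgroupIn ℚ, σ z = z) →
    ∃ a b : RI A, b ≠ 0 ∧ algebraMap (RI A) Qb b * z = algebraMap (RI A) Qb a := by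
  intro z hfix
  by_cases hz : z ∈ A
  · exact ⟨⟨z, hz, hfix⟩, 1, one_ne_zero, by simp [algebraMap_RI]⟩
  · have hz0 : z ≠ 0 := fun h => hz (h ▸ A.zero_mem)
    have hinv : z⁻¹ ∈ A := (A.mem_or_inv_mem z).resolve_left hz
    refine ⟨1, ⟨z⁻¹, hinv, fun σ hσ => by rw [map_inv₀, hfix σ hσ]⟩, ?_, ?_⟩
    · intro h
      exact inv_ne_zero hz0 (congrArg Subtype.val h)
    · rw [algebraMap_RI, algebraMap_RI]
      exact inv_mul_cancel₀ hz0

/-- an element of `RI A` which is a unit of `A` is a unit of `RI A`. -/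
theorem isUnit_RI_of_not_mem {A : ValuationSubring Qb} (a : RI A) (h : (a : Qb) ∉ A.nonunits) :
    IsUnit a := by
  have hv : A.valuation (a : Qb) = 1 := by
    have h1 : A.valuation (a : Qb) ≤ 1 := (A.valuation_le_one_iff _).2 a.2.1
    rw [ValuationSubring.mem_nonunits_iff, not_lt] at h
    exact le_antisymm h1 h
  have ha0 : (a : Qb) ≠ 0 := by
    intro h0
    rw [h0, map_zero] at hv
    exact zero_ne_one hv
  have hinv : (a : Qb)⁻¹ ∈ A := by
    rw [← A.valuation_le_one_iff, map_inv₀, hv, inv_one]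
  refine IsUnit.of_mul_eq_one (⟨(a : Qb)⁻¹, hinv, fun σ hσ => by rw [map_inv₀, a.2.2 σ hσ]⟩ : RI A) ?_
  exact Subtype.ext (mul_inv_cancel₀ ha0)

/-- `p` as an element of `RI A`. -/
noncomputable def pRI (A : ValuationSubring Qb) (p : ℕ) : RI A := (p : RI A)

theorem coe_pRI (A : ValuationSubring Qb) (p : ℕ) : ((pRI A p : RI A) : Qb) = (p : Qb) := by
  simp [pRI]

theorem irreducible_pRI (A : ValuationSubring Qb) {p : ℕ} (hp : p.Prime)
    (hA : A.LiesOverPrime p) : Irreducible (pRI A p) := by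
  have hp0 : (p : Qb) ≠ 0 := Nat.cast_ne_zero.2 hp.ne_zero
  have hpn : (p : Qb) ∈ A.nonunits := hA
  rw [irreducible_iff]
  constructor
  · intro hu
    obtain ⟨y, hy⟩ := hu.exists_right_inv
    have h1 : (p : Qb) * (y : Qb) = 1 := by
      have := congrArg Subtype.val hy
      simpa [coe_pRI] using this
    rw [ValuationSubring.mem_nonunits_iff] at hpn
    have h2 : A.valuation (y : Qb) ≤ 1 := (A.valuation_le_one_iff _).2 y.2.1
    have h3 : A.valuation ((p : Qb) * (y : Qb)) < 1 := by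
      rw [map_mul]
      exact mul_lt_one_of_lt_of_le hpn h2
    rw [h1, map_one] at h3
    exact lt_irrefl _ h3
  · intro a b hab
    by_cases ha : (a : Qb) ∈ A.nonunits
    · right
      obtain ⟨a', ha', haa'⟩ := U A hp hA a.2.2 ha
      have hfix : ∀ σ ∈ A.inertiaSubgroupIn ℚ, σ a' = a' := by
        intro σ hσ
        have h1 := a.2.2 σ hσ
        rw [haa', map_mul, map_natCast] at h1
        exact mul_left_cancel₀ hp0 h1
      refine IsUnit.of_mul_eq_one (⟨a', ha', hfix⟩ : RI A) ?_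
      apply Subtype.ext
      have h2 : (p : Qb) = (a : Qb) * (b : Qb) := by
        have := congrArg Subtype.val hab
        simpa [coe_pRI] using this
      rw [haa'] at h2
      have h3 : (p : Qb) * 1 = (p : Qb) * ((b : Qb) * a') := by
        rw [mul_one]; linear_combination h2
      exact (mul_left_cancel₀ hp0 h3).symm
    · left
      exact isUnit_RI_of_not_mem a ha

/-- Archimedean property: some power of `p` is divisible by `x ≠ 0`. -/
theorem exists_pow_eq_mul (A : ValuationSubring Qb) {p : ℕ} (hp : p.Prime)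
    (hA : A.LiesOverPrime p) {x : Qb} (hx : x ≠ 0) : ∃ k : ℕ, ∃ a ∈ A, (p : Qb) ^ k = x * a := by
  have hp0 : (p : Qb) ≠ 0 := Nat.cast_ne_zero.2 hp.ne_zero
  have halgQ : IsAlgebraic ℚ x⁻¹ := (AlgebraicClosure.isAlgebraic ℚ).isAlgebraic x⁻¹
  have halg : IsAlgebraic ℤ x⁻¹ := (IsFractionRing.isAlgebraic_iff ℤ ℚ Qb).2 halgQ
  obtain ⟨y, hy0, hy⟩ := halg.exists_integral_multiple
  have hyA : y • x⁻¹ ∈ A := Fermat.Agent.S54.integralClosure_le A _ hy
  -- `y = p ^ k * u`, `u` prime to `p`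
  obtain ⟨k, u, hu, hyu⟩ : ∃ (k : ℕ) (u : ℤ), ¬ (p : ℤ) ∣ u ∧ y = (p : ℤ) ^ k * u := by
    have hfin : FiniteMultiplicity (p : ℤ) y :=
      Int.finiteMultiplicity_iff.2 ⟨by
        rw [Int.natAbs_natCast]; exact hp.one_lt.ne', hy0⟩
    obtain ⟨u, hu1, hu2⟩ := hfin.exists_eq_pow_mul_and_not_dvd
    exact ⟨_, u, hu2, hu1⟩
  -- `u` is a unit of `A`
  have huA : ((u : ℤ) : Qb)⁻¹ ∈ A := by
    have hcop : IsCoprime u (p : ℤ) := by
      have := (Nat.prime_iff_prime_int.1 hp).coprime_iff_not_dvd.2 hu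
      exact this.symm
    obtain ⟨s, t, hst⟩ := hcop
    have h1 : ((s : ℤ) : Qb) * (u : Qb) + (t : Qb) * (p : Qb) = 1 := by exact_mod_cast hst
    have hun : ((u : ℤ) : Qb) ∉ A.nonunits := by
      intro hun
      have hpn : (p : Qb) ∈ A.nonunits := hA
      rw [ValuationSubring.mem_nonunits_iff] at hun hpn
      have hs : A.valuation ((s : ℤ) : Qb) ≤ 1 := (A.valuation_le_one_iff _).2 (intCast_mem A s)
      have ht : A.valuation ((t : ℤ) : Qb) ≤ 1 := (A.valuation_le_one_iff _).2 (intCast_mem A t)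
      have h2 : A.valuation (((s : ℤ) : Qb) * (u : Qb) + (t : Qb) * (p : Qb)) < 1 := by
        refine lt_of_le_of_lt (A.valuation.map_add _ _) (max_lt ?_ ?_)
        · rw [map_mul, mul_comm]; exact mul_lt_one_of_lt_of_le hun hs
        · rw [map_mul, mul_comm]; exact mul_lt_one_of_lt_of_le hpn ht
      rw [h1, map_one] at h2
      exact lt_irrefl _ h2
    have hv1 : A.valuation ((u : ℤ) : Qb) ≤ 1 := (A.valuation_le_one_iff _).2 (intCast_mem A u)
    rw [ValuationSubring.mem_nonunits_iff, not_lt] at hun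
    rw [← A.valuation_le_one_iff, map_inv₀, le_antisymm hv1 hun, inv_one]
  have hu0 : ((u : ℤ) : Qb) ≠ 0 := by
    intro h0
    apply hu
    have : u = 0 := by exact_mod_cast h0
    rw [this]; exact dvd_zero _
  refine ⟨k, (y • x⁻¹) * ((u : ℤ) : Qb)⁻¹, A.mul_mem _ _ hyA huA, ?_⟩
  rw [zsmul_eq_mul, hyu]
  push_cast
  field_simp

theorem exists_associated_aux (A : ValuationSubring Qb) {p : ℕ} (hp : p.Prime)
    (hA : A.LiesOverPrime p) : ∀ (k : ℕ) (x : RI A), (∃ a ∈ A, (p : Qb) ^ k = (x : Qb) * a) →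
      ∃ n : ℕ, Associated (pRI A p ^ n) x := by
  have hp0 : (p : Qb) ≠ 0 := Nat.cast_ne_zero.2 hp.ne_zero
  intro k
  induction k with
  | zero =>
    rintro x ⟨a, ha, hxa⟩
    refine ⟨0, ?_⟩
    rw [pow_zero]
    refine (associated_one_iff_isUnit.2 (isUnit_RI_of_not_mem x ?_)).symm
    intro hx
    rw [ValuationSubring.mem_nonunits_iff] at hx
    have h2 : A.valuation a ≤ 1 := (A.valuation_le_one_iff _).2 ha
    have h3 : A.valuation ((x : Qb) * a) < 1 := by
      rw [map_mul]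
      exact mul_lt_one_of_lt_of_le hx h2
    rw [← hxa, pow_zero, map_one] at h3
    exact lt_irrefl _ h3
  | succ k ih =>
    rintro x ⟨a, ha, hxa⟩
    by_cases hx : (x : Qb) ∈ A.nonunits
    · obtain ⟨x', hx', hxx'⟩ := U A hp hA x.2.2 hx
      have hfix : ∀ σ ∈ A.inertiaSubgroupIn ℚ, σ x' = x' := by
        intro σ hσ
        have h1 := x.2.2 σ hσ
        rw [hxx', map_mul, map_natCast] at h1
        exact mul_left_cancel₀ hp0 h1
      obtain ⟨n, hn⟩ := ih (⟨x', hx', hfix⟩ : RI A) ⟨a, ha, by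
        show (p : Qb) ^ k = x' * a
        rw [hxx', pow_succ] at hxa
        have : (p : Qb) * (p : Qb) ^ k = (p : Qb) * (x' * a) := by linear_combination hxa
        exact mul_left_cancel₀ hp0 this⟩
      refine ⟨n + 1, ?_⟩
      have hx2 : x = (⟨x', hx', hfix⟩ : RI A) * pRI A p := by
        apply Subtype.ext
        show (x : Qb) = x' * ((pRI A p : RI A) : Qb)
        rw [coe_pRI, hxx', mul_comm]
      rw [pow_succ, hx2]
      exact hn.mul_right _
    · refine ⟨0, ?_⟩
      rw [pow_zero]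
      exact (associated_one_iff_isUnit.2 (isUnit_RI_of_not_mem x hx)).symm

theorem isDVR_RI (A : ValuationSubring Qb) {p : ℕ} (hp : p.Prime) (hA : A.LiesOverPrime p) :
    IsDiscreteValuationRing (RI A) := by
  apply IsDiscreteValuationRing.ofHasUnitMulPowIrreducibleFactorization
  refine ⟨pRI A p, irreducible_pRI A hp hA, ?_⟩
  intro x hx
  have hx0 : (x : Qb) ≠ 0 := fun h => hx (Subtype.ext h)
  obtain ⟨k, a, ha, hk⟩ := exists_pow_eq_mul A hp hA hx0
  exact exists_associated_aux A hp hA k x ⟨a, ha, hk⟩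

theorem isPrincipalIdealRing_RI (A : ValuationSubring Qb) {p : ℕ} (hp : p.Prime)
    (hA : A.LiesOverPrime p) : IsPrincipalIdealRing (RI A) := by
  have := isDVR_RI A hp hA
  infer_instance

/-- `ℤ_(p)`-type constants: every rational number lying in `A` is in `RI A`. -/
theorem ratCast_mem_RI (A : ValuationSubring Qb) (r : ℚ) (h : (r : Qb) ∈ A) : (r : Qb) ∈ RI A :=
  ⟨h, fun σ _ => by
    have := σ.commutes r
    simpa using this⟩

end Fermat.Agent.S33.RIB
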